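import Mathlib
import Fermat.Agent.MU.Lib.Deuring.Basic
import Fermat.Agent.MU.Lib.Deuring.RedSpace

section MergeWrap_Lib_BadRed_Nodal_Setup -- from Lib/BadRed/Nodal/Setup.lean

set_option autoImplicit false

/-!
# Cluster T (bad reduction at `q ∥ N`): the abstract NODAL reduction package, interface

`F / K` a function field with TWO constant reductions `S₁ : ValSetup K F k Fk₁`,
`S₂ : ValSetup K F k Fk₂` over the same valuation ring `A` of `K` (for `X₀(q N₀)`: the Gauss
valuations `v_∞` and `v_0 = v_∞ ∘ w_q`, `Fk₁ = Fk₂ = k(X₀(N₀))`), a finite set `ι` of NODES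
(`s₁ i` on the first component is glued to `s₂ i` on the second; for `X₀(q N₀)`: the supersingular
points), and a reduction map `r` of the ORDINARY places (`r P = none` for the places in the
annuli).

The package is the two-component analogue of `Fermat.Agent.S18Key.RedSetup` /
`Fermat.Agent.Deuring.exists_reduction`.  Nothing here mentions modular curves.

Consumers: `NodalKey` (kernel of reduction has no prime-to-`q` torsion) and `card_W0_le`
(`|W₀[n]| ≤ n ^ (s - 1)`), see `Statements.lean`.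
-/

noncomputable section

open AlgebraicCurve Fermat.Agent.RR Fermat.Agent.Deuring

namespace Fermat.Agent.BadRed

variable {K F k Fk₁ Fk₂ : Type*} [Field K] [Field F] [Algebra K F]
  [Field k] [Field Fk₁] [Algebra k Fk₁] [Field Fk₂] [Algebra k Fk₂]

/-- `f` takes the value `c` at the place `Q` (junk-value safe: `Place.ord 0 = 0`). -/
def ValAt {k Fk : Type*} [Field k] [Field Fk] [Algebra k Fk] (Q : Place k Fk) (f : Fk) (c : k) :
    Prop :=
  f = algebraMap k Fk c ∨ 0 < Q.ord (f - algebraMap k Fk c)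

/-- The nodal reduction package. -/
structure NodalSetup (K F k Fk₁ Fk₂ : Type*) [Field K] [Field F] [Algebra K F]
    [Field k] [Field Fk₁] [Algebra k Fk₁] [Field Fk₂] [Algebra k Fk₂] (ι : Type*) where
  /-- the first constant reduction -/
  S₁ : ValSetup K F k Fk₁
  /-- the second constant reduction -/
  S₂ : ValSetup K F k Fk₂
  /-- both lie over the same valuation ring of `K` -/
  A_eq : S₁.A = S₂.A
  /-- with the same residue map -/
  res_eq : ∀ (c : K) (h₁ : c ∈ S₁.A) (h₂ : c ∈ S₂.A), S₁.res ⟨c, h₁⟩ = S₂.res ⟨c, h₂⟩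
  /-- lattice property of the first reduction -/
  lat₁ : HasLattice S₁
  /-- lattice property of the second reduction -/
  lat₂ : HasLattice S₂
  /-- the nodes, seen on the first component -/
  s₁ : ι → Place k Fk₁
  /-- the nodes, seen on the second component -/
  s₂ : ι → Place k Fk₂
  s₁_inj : Function.Injective s₁
  s₂_inj : Function.Injective s₂
  /-- reduction of places: `some (inl Q)` / `some (inr Q)` for the ordinary places, `none` for the
  places in the annuli -/
  r : Place K F → Option (Place k Fk₁ ⊕ Place k Fk₂)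
  /-- ordinary places do not reduce to nodes -/
  r_ne_node₁ : ∀ P i, r P ≠ some (Sum.inl (s₁ i))
  r_ne_node₂ : ∀ P i, r P ≠ some (Sum.inr (s₂ i))
  /-- every smooth point of the special fibre lifts -/
  r_surj₁ : ∀ Q : Place k Fk₁, (∀ i, Q ≠ s₁ i) → ∃ P, r P = some (Sum.inl Q)
  r_surj₂ : ∀ Q : Place k Fk₂, (∀ i, Q ≠ s₂ i) → ∃ P, r P = some (Sum.inr Q)
  /-- `r_* (div f) = div (red₁ f)` at the smooth points of the first component, `f` a unit of
  the first valuation ring -/
  push₁ : ∀ f : F, f ∈ S₁.Ov → f⁻¹ ∈ S₁.Ov → f ≠ 0 →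
    ∀ Q : Place k Fk₁, (∀ i, Q ≠ s₁ i) →
      Finsupp.mapDomain r (divOf S₁.hF f) (some (Sum.inl Q)) = Q.ord (S₁.red f)
  /-- the same on the second component -/
  push₂ : ∀ f : F, f ∈ S₂.Ov → f⁻¹ ∈ S₂.Ov → f ≠ 0 →
    ∀ Q : Place k Fk₂, (∀ i, Q ≠ s₂ i) →
      Finsupp.mapDomain r (divOf S₁.hF f) (some (Sum.inr Q)) = Q.ord (S₂.red f)
  /-- NODE CONDITION: a function which is integral for both valuations and has no pole in the
  annuli reduces to a pair of functions which are regular at the nodes and take the same value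
  on both branches -/
  node : ∀ f : F, f ∈ S₁.Ov → f ∈ S₂.Ov → (∀ P, r P = none → 0 ≤ P.ord f) → ∀ i,
    0 ≤ (s₁ i).ord (S₁.red f) ∧ 0 ≤ (s₂ i).ord (S₂.red f) ∧
      ∃ c : k, ValAt (s₁ i) (S₁.red f) c ∧ ValAt (s₂ i) (S₂.red f) c

/-- The genus relation `g = g₁ + g₂ + s - 1` of a nodal curve with two components and `s`
nodes. -/
def NodalSetup.GenusRel {ι : Type*} [Fintype ι] (_N : NodalSetup K F k Fk₁ Fk₂ ι) : Prop :=
  genusFF K F + 1 = genusFF k Fk₁ + genusFF k Fk₂ + Fintype.card ι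

variable {ι : Type*} (N : NodalSetup K F k Fk₁ Fk₂ ι)

/-- a place is ordinary if it has a reduction. -/
def NodalSetup.IsOrd (P : Place K F) : Prop := ∃ Q, N.r P = some Q

/-- a divisor is ordinary if it is supported on ordinary places. -/
def NodalSetup.IsOrdDiv (D : Divisor K F) : Prop := ∀ P, D P ≠ 0 → N.IsOrd P

/-- **Kernel-of-reduction divisors**: ordinary divisors with trivial reduction. -/
def NodalSetup.RedTrivial (D : Divisor K F) : Prop :=
  N.IsOrdDiv D ∧ ∀ Q, Finsupp.mapDomain N.r D (some Q) = 0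

/-- `W₀`-divisors for the exponent `n`: `n D = div g` and `g` is, up to a constant, an `n`-th
power in BOTH residue fields.  (For `X₀(q N₀)`: the classes killed by both reduction maps
`r_∞`, `r_0 : J[n] → Fk^× / n`, i.e. the toric part of `J[n]`.) -/
def NodalSetup.IsW0Div (n : ℕ) (D : Divisor K F) : Prop :=
  ∃ g : F, g ≠ 0 ∧ (∀ P : Place K F, P.ord g = n * D P) ∧
    (∃ c₁ : K, c₁ ≠ 0 ∧ ∃ h₁ : Fk₁, h₁ ≠ 0 ∧ N.S₁.red (g / algebraMap K F c₁) = h₁ ^ n) ∧
    (∃ c₂ : K, c₂ ≠ 0 ∧ ∃ h₂ : Fk₂, h₂ ≠ 0 ∧ N.S₂.red (g / algebraMap K F c₂) = h₂ ^ n)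

/-- the set `W₀[n]` of divisor classes of degree `0`. -/
def NodalSetup.W0 (n : ℕ) : Set (Pic0 K F) :=
  {x | ∃ D : Divisor.degZero (K := K) (F := F), Pic0.mk D = x ∧ N.IsW0Div n (D : Divisor K F)}

/-- the nodal Riemann-Roch space: pairs of functions with poles bounded by `(D₁, D₂)`, regular at
the nodes, taking the same value on both branches of every node. -/
def NodalSetup.IsNodalFn (a : Fk₁) (b : Fk₂) : Prop :=
  ∀ i, 0 ≤ (N.s₁ i).ord a ∧ 0 ≤ (N.s₂ i).ord b ∧ ∃ c : k, ValAt (N.s₁ i) a c ∧ ValAt (N.s₂ i) b c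

/-! ### The statements (proved in `Key*.lean`, `Gluing*.lean`) -/

/-- **(I6) NODAL KEY LEMMA**: the kernel of reduction has no `m`-torsion, `m` a unit of `A`. -/
def NodalKeyStatement [Fintype ι] : Prop :=
  N.GenusRel → ∀ m : ℕ, (m : K) ≠ 0 → ((m : K))⁻¹ ∈ N.S₁.A →
    ∀ D : Divisor K F, Divisor.degree D = 0 → N.RedTrivial D →
      (m • D) ∈ Divisor.principal (K := K) (F := F) →
      D ∈ Divisor.principal (K := K) (F := F)

/-- **(RK) the toric bound**: `W₀[n]` is finite of cardinality at most `n ^ (s - 1)`. -/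
def ToricBoundStatement [Fintype ι] : Prop :=
  N.GenusRel → ∀ n : ℕ, (n : K) ≠ 0 → ((n : K))⁻¹ ∈ N.S₁.A →
    (N.W0 n).Finite ∧ (N.W0 n).ncard ≤ n ^ (Fintype.card ι - 1)

end Fermat.Agent.BadRed
end
end MergeWrap_Lib_BadRed_Nodal_Setup
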