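import Mathlib
import Fermat.Agent.MU.Lib.Deuring.Basic
import Fermat.Agent.MU.Lib.Deuring.RedSpace
import Fermat.Agent.MU.Lib.Deuring.Construct

section MergeWrap_Lib_GaussInt_TwoVal -- from Lib/GaussInt/TwoVal.lean

set_option autoImplicit false

noncomputable section

namespace Fermat.Agent.GaussInt

variable {K F : Type*} [Field K] [Field F] [Algebra K F]

/-- The LATTICE property of a valuation ring `O` of `F` relative to the valuation ring `A` of
`K`: every finite-dimensional `K`-subspace has an orthonormal basis. -/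
def OrthLattice (A : ValuationSubring K) (O : ValuationSubring F) : Prop :=
  ∀ W : Submodule K F, FiniteDimensional K W →
    ∃ (n : ℕ) (w : Fin n → F), (∀ i, w i ∈ W) ∧ (∀ i, w i ∈ O) ∧ LinearIndependent K w ∧
      Submodule.span K (Set.range w) = W ∧
      ∀ c : Fin n → K, ∑ i, c i • w i ∈ O → ∀ i, c i ∈ A

/-- The value group of `O` is the value group of `A`: every `f ≠ 0` is a constant times a unit
of `O`. -/
def ScaleProp (O : ValuationSubring F) : Prop :=
  ∀ f : F, f ≠ 0 → ∃ c : K, c ≠ 0 ∧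
    f * (algebraMap K F c)⁻¹ ∈ O ∧ (f * (algebraMap K F c)⁻¹)⁻¹ ∈ O

/-- A family is orthogonal for `O`: a linear combination is integral only if all its terms
are. -/
def IsOrthFamily (O : ValuationSubring F) {n : ℕ} (u : Fin n → F) : Prop :=
  ∀ c : Fin n → K, ∑ i, c i • u i ∈ O → ∀ i, c i • u i ∈ O

theorem smul_mem_of_mem {A : ValuationSubring K} {O : ValuationSubring F}
    (hA : ∀ c : K, c ∈ A → algebraMap K F c ∈ O) {a : K} (ha : a ∈ A) {x : F} (hx : x ∈ O) :
    a • x ∈ O := by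
  rw [Algebra.smul_def]
  exact O.mul_mem _ _ (hA a ha) hx

theorem sum_smul_mem {A : ValuationSubring K} {O : ValuationSubring F}
    (hA : ∀ c : K, c ∈ A → algebraMap K F c ∈ O) {ι : Type*} (s : Finset ι) (a : ι → K)
    (x : ι → F) (ha : ∀ i ∈ s, a i ∈ A) (hx : ∀ i ∈ s, x i ∈ O) :
    ∑ i ∈ s, a i • x i ∈ O :=
  O.toSubring.sum_mem fun i hi => smul_mem_of_mem hA (ha i hi) (hx i hi)

/-- In a finite nonempty family of elements of `K` there is one of maximal absolute value. -/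
theorem exists_max_entry (A : ValuationSubring K) {ι : Type*} (s : Finset ι) (hs : s.Nonempty)
    (b : ι → K) :
    ∃ i₀ ∈ s, ∀ i ∈ s, b i₀ = 0 ∧ b i = 0 ∨ b i₀ ≠ 0 ∧ b i / b i₀ ∈ A := by
  obtain ⟨i₀, hi₀, hmax⟩ := Finset.exists_max_image s (fun i => A.valuation (b i)) hs
  refine ⟨i₀, hi₀, fun i hi => ?_⟩
  have h := hmax i hi
  by_cases h0 : b i₀ = 0
  · left
    refine ⟨h0, ?_⟩
    rw [h0, map_zero] at h
    exact (map_eq_zero _).mp (le_antisymm h zero_le)
  · right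
    refine ⟨h0, ?_⟩
    rw [← ValuationSubring.valuation_le_one_iff, map_div₀]
    exact div_le_one_of_le₀ h zero_le


section Step

variable {A : ValuationSubring K} {O₁ O₂ : ValuationSubring F}

/-- Coordinates of an integral element in an orthonormal basis are integral. -/
theorem repr_mem_of_orth {O : ValuationSubring F} {W : Submodule K F} {n : ℕ}
    (B : Module.Basis (Fin n) K W)
    (horth : ∀ c : Fin n → K, ∑ i, c i • ((B i : W) : F) ∈ O → ∀ i, c i ∈ A)
    (w : W) (hw : (w : F) ∈ O) (i : Fin n) : B.repr w i ∈ A := by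
  apply horth (fun i => B.repr w i) _ i
  have h := congrArg (Subtype.val) (B.sum_repr w)
  simp only [Submodule.coe_sum, Submodule.coe_smul] at h
  rw [h]
  exact hw

/-- The inductive step: splitting off a common orthogonal vector. -/
theorem exists_split (hA₁ : ∀ c : K, c ∈ A → algebraMap K F c ∈ O₁)
    (hA₂ : ∀ c : K, c ∈ A → algebraMap K F c ∈ O₂)
    (hL₁ : OrthLattice A O₁) (hL₂ : OrthLattice A O₂)
    (W : Submodule K F) [FiniteDimensional K W] (hW : W ≠ ⊥) :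
    ∃ (e : F) (φ : W →ₗ[K] K), e ∈ W ∧ e ≠ 0 ∧
      (∀ he : e ∈ W, φ ⟨e, he⟩ = 1) ∧
      (∀ w : W, (w : F) ∈ O₁ → φ w • e ∈ O₁) ∧
      (∀ w : W, (w : F) ∈ O₂ → φ w • e ∈ O₂) := by
  classical
  obtain ⟨n, e, heW, heO, heli, hespan, heorth⟩ := hL₁ W inferInstance
  obtain ⟨m, f, hfW, hfO, hfli, hfspan, hforth⟩ := hL₂ W inferInstance
  -- the two bases of `W`
  set e' : Fin n → W := fun i => ⟨e i, heW i⟩ with he'
  set f' : Fin m → W := fun i => ⟨f i, hfW i⟩ with hf'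
  have he'li : LinearIndependent K e' := by
    apply LinearIndependent.of_comp W.subtype
    exact heli
  have hf'li : LinearIndependent K f' := by
    apply LinearIndependent.of_comp W.subtype
    exact hfli
  have he'span : ⊤ ≤ Submodule.span K (Set.range e') := by
    intro w _
    have hw : (w : F) ∈ Submodule.span K (Set.range e) := by rw [hespan]; exact w.2
    have h2 : Submodule.span K (Set.range e) = (Submodule.span K (Set.range e')).map W.subtype := by
      rw [Submodule.map_span, ← Set.range_comp]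
      rfl
    rw [h2] at hw
    obtain ⟨w', hw', hww'⟩ := hw
    have : w' = w := Subtype.ext hww'
    rw [← this]
    exact hw'
  have hf'span : ⊤ ≤ Submodule.span K (Set.range f') := by
    intro w _
    have hw : (w : F) ∈ Submodule.span K (Set.range f) := by rw [hfspan]; exact w.2
    have h2 : Submodule.span K (Set.range f) = (Submodule.span K (Set.range f')).map W.subtype := by
      rw [Submodule.map_span, ← Set.range_comp]
      rfl
    rw [h2] at hw
    obtain ⟨w', hw', hww'⟩ := hw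
    have : w' = w := Subtype.ext hww'
    rw [← this]
    exact hw'
  set Be : Module.Basis (Fin n) K W := Module.Basis.mk he'li he'span with hBe
  set Bf : Module.Basis (Fin m) K W := Module.Basis.mk hf'li hf'span with hBf
  have hBe_apply : ∀ i, ((Be i : W) : F) = e i := fun i => by
    rw [hBe, Module.Basis.mk_apply]
  have hBf_apply : ∀ i, ((Bf i : W) : F) = f i := fun i => by
    rw [hBf, Module.Basis.mk_apply]
  have heorth' : ∀ c : Fin n → K, ∑ i, c i • ((Be i : W) : F) ∈ O₁ → ∀ i, c i ∈ A := by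
    intro c hc
    apply heorth c
    simpa only [hBe_apply] using hc
  have hforth' : ∀ c : Fin m → K, ∑ i, c i • ((Bf i : W) : F) ∈ O₂ → ∀ i, c i ∈ A := by
    intro c hc
    apply hforth c
    simpa only [hBf_apply] using hc
  -- nonemptiness
  have hnpos : 0 < n := by
    by_contra h0
    have hn0 : n = 0 := by omega
    subst hn0
    apply hW
    rw [← hespan]
    have : Set.range e = ∅ := Set.range_eq_empty e
    rw [this, Submodule.span_empty]
  have hmpos : 0 < m := by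
    by_contra h0
    have hm0 : m = 0 := by omega
    subst hm0
    apply hW
    rw [← hfspan]
    have : Set.range f = ∅ := Set.range_eq_empty f
    rw [this, Submodule.span_empty]
  -- the matrix of `e` in terms of `f`, and an entry of maximal absolute value
  set b : Fin n × Fin m → K := fun p => Bf.repr (Be p.1) p.2 with hb
  have hne : (Finset.univ : Finset (Fin n × Fin m)).Nonempty :=
    ⟨(⟨0, hnpos⟩, ⟨0, hmpos⟩), Finset.mem_univ _⟩
  obtain ⟨⟨i₀, j₀⟩, -, hmax⟩ := exists_max_entry A Finset.univ hne b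
  have hb0 : b (i₀, j₀) ≠ 0 := by
    intro h0
    have hall : ∀ p, b p = 0 := fun p => by
      rcases hmax p (Finset.mem_univ _) with h | h
      · exact h.2
      · exact absurd h0 h.1
    have : Be ⟨0, hnpos⟩ = 0 := by
      apply Bf.repr.injective
      ext j
      rw [map_zero, Finsupp.zero_apply]
      exact hall (⟨0, hnpos⟩, j)
    exact Be.ne_zero _ this
  have hratio : ∀ p, b p / b (i₀, j₀) ∈ A := fun p => by
    rcases hmax p (Finset.mem_univ _) with h | h
    · exact absurd h.1 hb0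
    · exact h.2
  set β : K := b (i₀, j₀) with hβ
  -- the functional and the vector
  refine ⟨e i₀, β⁻¹ • Bf.coord j₀, heW i₀, ?_, ?_, ?_, ?_⟩
  · exact fun h => heli.ne_zero i₀ h
  · intro he
    have : (⟨e i₀, he⟩ : W) = Be i₀ := Subtype.ext (hBe_apply i₀).symm
    rw [this, LinearMap.smul_apply, Module.Basis.coord_apply, smul_eq_mul]
    exact inv_mul_cancel₀ hb0
  · -- orthogonality for `O₁`
    intro w hw
    have hc : ∀ i, Be.repr w i ∈ A := repr_mem_of_orth Be heorth' w hw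
    have h1 : (β⁻¹ • Bf.coord j₀) w = ∑ i, Be.repr w i * (b (i, j₀) / β) := by
      rw [LinearMap.smul_apply, smul_eq_mul]
      conv_lhs => rw [← Be.sum_repr w]
      rw [map_sum, Finset.mul_sum]
      refine Finset.sum_congr rfl fun i _ => ?_
      rw [map_smul, smul_eq_mul, Module.Basis.coord_apply]
      rw [hb]
      field_simp
    have h2 : (β⁻¹ • Bf.coord j₀) w ∈ A := by
      rw [h1]
      exact A.toSubring.sum_mem fun i _ => A.mul_mem _ _ (hc i) (hratio (i, j₀))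
    exact smul_mem_of_mem hA₁ h2 (heO i₀)
  · -- orthogonality for `O₂`
    intro w hw
    have hc : Bf.repr w j₀ ∈ A := repr_mem_of_orth Bf hforth' w hw j₀
    have h1 : β⁻¹ • e i₀ = ∑ j, (b (i₀, j) / β) • f j := by
      have h3 : e i₀ = ∑ j, b (i₀, j) • f j := by
        have h4 := congrArg (Subtype.val) (Bf.sum_repr (Be i₀))
        rw [hBe_apply] at h4
        rw [← h4]
        simp only [Submodule.coe_sum, Submodule.coe_smul, hBf_apply]
        rfl
      conv_lhs => rw [h3]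
      rw [Finset.smul_sum]
      refine Finset.sum_congr rfl fun j _ => ?_
      rw [smul_smul, div_eq_inv_mul]
    have h2 : β⁻¹ • e i₀ ∈ O₂ := by
      rw [h1]
      exact sum_smul_mem hA₂ _ _ _ (fun j _ => hratio (i₀, j)) (fun j _ => hfO j)
    have h5 : (β⁻¹ • Bf.coord j₀) w • e i₀ = Bf.repr w j₀ • (β⁻¹ • e i₀) := by
      rw [LinearMap.smul_apply, Module.Basis.coord_apply, smul_eq_mul, smul_smul, mul_comm]
    rw [h5]
    exact smul_mem_of_mem hA₂ hc h2

/-- **Simultaneous orthogonal basis**, by induction on the dimension. -/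
theorem exists_simul_orthogonal_aux (hA₁ : ∀ c : K, c ∈ A → algebraMap K F c ∈ O₁)
    (hA₂ : ∀ c : K, c ∈ A → algebraMap K F c ∈ O₂)
    (hL₁ : OrthLattice A O₁) (hL₂ : OrthLattice A O₂) :
    ∀ (d : ℕ) (W : Submodule K F), FiniteDimensional K W → Module.finrank K W = d →
      ∃ (n : ℕ) (u : Fin n → F), (∀ i, u i ∈ W) ∧ LinearIndependent K u ∧
        Submodule.span K (Set.range u) = W ∧
        IsOrthFamily (K := K) O₁ u ∧ IsOrthFamily (K := K) O₂ u := by
  classical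
  intro d
  induction d with
  | zero =>
    intro W hfd hW
    have hbot : W = ⊥ := Submodule.finrank_eq_zero.mp hW
    refine ⟨0, Fin.elim0, fun i => i.elim0, linearIndependent_empty_type, ?_,
      fun _ _ i => i.elim0, fun _ _ i => i.elim0⟩
    rw [hbot]
    have : Set.range (Fin.elim0 : Fin 0 → F) = ∅ := Set.range_eq_empty _
    rw [this, Submodule.span_empty]
  | succ d ih =>
    intro W hfd hW
    have hne : W ≠ ⊥ := by
      intro h0
      rw [h0, finrank_bot] at hW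
      omega
    obtain ⟨e, φ, heW, he0, hφe, hs₁, hs₂⟩ := exists_split hA₁ hA₂ hL₁ hL₂ W hne
    have hφe' : φ ⟨e, heW⟩ = 1 := hφe heW
    set W' : Submodule K F := (LinearMap.ker φ).map W.subtype with hW'
    have hW'le : W' ≤ W := by
      rintro _ ⟨x, -, rfl⟩
      exact x.2
    have hmemW' : ∀ x : F, x ∈ W' ↔ ∃ hx : x ∈ W, φ ⟨x, hx⟩ = 0 := by
      intro x
      constructor
      · rintro ⟨y, hy, rfl⟩
        exact ⟨y.2, hy⟩
      · rintro ⟨hx, h0⟩
        exact ⟨⟨x, hx⟩, h0, rfl⟩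
    have hfdW' : FiniteDimensional K W' := Submodule.finiteDimensional_of_le hW'le
    have hsurj : Function.Surjective φ := by
      intro c
      refine ⟨c • ⟨e, heW⟩, ?_⟩
      rw [map_smul, hφe', smul_eq_mul, mul_one]
    have hfr : Module.finrank K W' = d := by
      have h1 : Module.finrank K W' = Module.finrank K (LinearMap.ker φ) :=
        (LinearEquiv.finrank_eq
          (Submodule.equivMapOfInjective W.subtype W.injective_subtype (LinearMap.ker φ))).symm
      have h2 := LinearMap.finrank_range_add_finrank_ker φ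
      rw [LinearMap.range_eq_top.mpr hsurj, finrank_top, Module.finrank_self, hW] at h2
      omega
    obtain ⟨m, u', hu'W, hu'li, hu'span, hu'o₁, hu'o₂⟩ := ih W' hfdW' hfr
    have hφu' : ∀ i, ∀ h : u' i ∈ W, φ ⟨u' i, h⟩ = 0 := fun i h => by
      obtain ⟨hx, h0⟩ := (hmemW' (u' i)).mp (hu'W i)
      exact h0
    -- the decomposition of a linear combination
    have hsum : ∀ c : Fin (m + 1) → K,
        ∑ i, c i • (Fin.cons e u' : Fin (m + 1) → F) i =
          c 0 • e + ∑ i : Fin m, c i.succ • u' i := by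
      intro c
      rw [Fin.sum_univ_succ]
      simp only [Fin.cons_zero, Fin.cons_succ]
    have hrestW : ∀ c : Fin m → K, ∑ i, c i • u' i ∈ W' := fun c =>
      W'.sum_mem fun i _ => W'.smul_mem _ (hu'W i)
    have hφsum : ∀ c : Fin (m + 1) → K,
        ∀ h : c 0 • e + ∑ i : Fin m, c i.succ • u' i ∈ W,
          φ ⟨c 0 • e + ∑ i : Fin m, c i.succ • u' i, h⟩ = c 0 := by
      intro c h
      obtain ⟨hx, h0⟩ := (hmemW' _).mp (hrestW fun i => c i.succ)
      have : (⟨c 0 • e + ∑ i : Fin m, c i.succ • u' i, h⟩ : W) =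
          c 0 • ⟨e, heW⟩ + ⟨∑ i : Fin m, c i.succ • u' i, hx⟩ := rfl
      rw [this, map_add, map_smul, hφe', h0, add_zero, smul_eq_mul, mul_one]
    have horth : ∀ (O : ValuationSubring F), (∀ w : W, (w : F) ∈ O → φ w • e ∈ O) →
        IsOrthFamily (K := K) O u' → IsOrthFamily (K := K) O (Fin.cons e u' : Fin (m + 1) → F) := by
      intro O hs hu'o c hc
      rw [hsum] at hc
      have hmemW : c 0 • e + ∑ i : Fin m, c i.succ • u' i ∈ W :=
        W.add_mem (W.smul_mem _ heW) (hW'le (hrestW _))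
      have h0 : c 0 • e ∈ O := by
        have := hs ⟨_, hmemW⟩ hc
        rwa [hφsum c hmemW] at this
      have hrest : ∑ i : Fin m, c i.succ • u' i ∈ O := by
        have := O.toSubring.sub_mem hc h0
        rwa [add_sub_cancel_left] at this
      have hall := hu'o (fun i => c i.succ) hrest
      intro i
      refine Fin.cases ?_ (fun j => ?_) i
      · simpa only [Fin.cons_zero] using h0
      · simpa only [Fin.cons_succ] using hall j
    refine ⟨m + 1, Fin.cons e u', ?_, ?_, ?_, horth O₁ hs₁ hu'o₁, horth O₂ hs₂ hu'o₂⟩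
    · intro i
      refine Fin.cases ?_ (fun j => ?_) i
      · simpa only [Fin.cons_zero] using heW
      · simpa only [Fin.cons_succ] using hW'le (hu'W j)
    · rw [linearIndependent_finCons]
      refine ⟨hu'li, ?_⟩
      rw [hu'span, hmemW']
      rintro ⟨hx, h0⟩
      rw [hφe hx] at h0
      exact one_ne_zero h0
    · rw [Fin.range_cons, Submodule.span_insert, hu'span]
      apply le_antisymm
      · apply sup_le
        · rw [Submodule.span_le]
          rintro _ rfl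
          exact heW
        · exact hW'le
      · intro w hw
        have h1 : w = φ ⟨w, hw⟩ • e + (w - φ ⟨w, hw⟩ • e) := by ring
        rw [h1]
        apply Submodule.add_mem
        · exact Submodule.mem_sup_left (Submodule.smul_mem _ _ (Submodule.mem_span_singleton_self e))
        · apply Submodule.mem_sup_right
          rw [hmemW']
          have hmem : w - φ ⟨w, hw⟩ • e ∈ W := W.sub_mem hw (W.smul_mem _ heW)
          refine ⟨hmem, ?_⟩
          have : (⟨w - φ ⟨w, hw⟩ • e, hmem⟩ : W) = ⟨w, hw⟩ - φ ⟨w, hw⟩ • ⟨e, heW⟩ := rfl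
          rw [this, map_sub, map_smul, hφe', smul_eq_mul, mul_one, sub_self]

/-- **SIMULTANEOUS ORTHOGONAL BASIS.**  If two valuation rings `O₁`, `O₂` of `F` over the
valuation ring `A` of `K` both have the lattice property, every finite-dimensional `K`-subspace
of `F` has a basis which is orthogonal for both. -/
theorem exists_simul_orthogonal (hA₁ : ∀ c : K, c ∈ A → algebraMap K F c ∈ O₁)
    (hA₂ : ∀ c : K, c ∈ A → algebraMap K F c ∈ O₂)
    (hL₁ : OrthLattice A O₁) (hL₂ : OrthLattice A O₂)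
    (W : Submodule K F) [hfd : FiniteDimensional K W] :
    ∃ (n : ℕ) (u : Fin n → F), (∀ i, u i ∈ W) ∧ LinearIndependent K u ∧
      Submodule.span K (Set.range u) = W ∧
      IsOrthFamily (K := K) O₁ u ∧ IsOrthFamily (K := K) O₂ u :=
  exists_simul_orthogonal_aux hA₁ hA₂ hL₁ hL₂ _ W hfd rfl

/-- Scaling an orthogonal family keeps it orthogonal. -/
theorem IsOrthFamily.smul {O : ValuationSubring F} {n : ℕ} {u : Fin n → F}
    (hu : IsOrthFamily (K := K) O u) (t : Fin n → K) :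
    IsOrthFamily (K := K) O (fun i => t i • u i) := by
  intro c hc i
  have h1 : ∑ i, c i • (fun i => t i • u i) i = ∑ i, (c i * t i) • u i :=
    Finset.sum_congr rfl fun i _ => smul_smul _ _ _
  rw [h1] at hc
  have := hu (fun i => c i * t i) hc i
  simpa only [smul_smul] using this

/-- **MAX-NORM ORTHONORMAL BASIS.**  If moreover the value groups of `O₁` and `O₂` are the value
group of `A`, every finite-dimensional `W` has a basis in `O₁ ∩ O₂`, each member of which is a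
unit of `O₁` or of `O₂`, such that a linear combination is in `O₁ ∩ O₂` only if its coefficients
are in `A`. -/
theorem exists_max_orthonormal (hA₁ : ∀ c : K, algebraMap K F c ∈ O₁ ↔ c ∈ A)
    (hA₂ : ∀ c : K, algebraMap K F c ∈ O₂ ↔ c ∈ A)
    (hL₁ : OrthLattice A O₁) (hL₂ : OrthLattice A O₂)
    (hs₁ : ScaleProp (K := K) O₁) (hs₂ : ScaleProp (K := K) O₂)
    (W : Submodule K F) [FiniteDimensional K W] :
    ∃ (n : ℕ) (u : Fin n → F), (∀ i, u i ∈ W) ∧ (∀ i, u i ∈ O₁) ∧ (∀ i, u i ∈ O₂) ∧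
      LinearIndependent K u ∧ Submodule.span K (Set.range u) = W ∧
      (∀ i, (u i)⁻¹ ∈ O₁ ∨ (u i)⁻¹ ∈ O₂) ∧
      IsOrthFamily (K := K) O₁ u ∧ IsOrthFamily (K := K) O₂ u ∧
      ∀ c : Fin n → K, ∑ i, c i • u i ∈ O₁ → ∑ i, c i • u i ∈ O₂ → ∀ i, c i ∈ A := by
  classical
  obtain ⟨n, u, huW, huli, huspan, huo₁, huo₂⟩ :=
    exists_simul_orthogonal (fun c hc => (hA₁ c).mpr hc) (fun c hc => (hA₂ c).mpr hc) hL₁ hL₂ W
  -- the normalising constants
  have hex : ∀ i, ∃ t : K, t ≠ 0 ∧ t • u i ∈ O₁ ∧ t • u i ∈ O₂ ∧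
      ((t • u i)⁻¹ ∈ O₁ ∨ (t • u i)⁻¹ ∈ O₂) := by
    intro i
    have hui : u i ≠ 0 := huli.ne_zero i
    obtain ⟨c₁, hc₁, h₁, h₁'⟩ := hs₁ (u i) hui
    obtain ⟨c₂, hc₂, h₂, h₂'⟩ := hs₂ (u i) hui
    have key : ∀ t : K, t⁻¹ • u i = u i * (algebraMap K F t)⁻¹ := fun t => by
      rw [Algebra.smul_def, map_inv₀, mul_comm]
    rcases A.mem_or_inv_mem (c₁ / c₂) with h | h
    · -- `|c₁| ≤ |c₂|`: normalise by `c₂`
      refine ⟨c₂⁻¹, inv_ne_zero hc₂, ?_, ?_, Or.inr ?_⟩
      · have : c₂⁻¹ • u i = algebraMap K F (c₁ / c₂) * (u i * (algebraMap K F c₁)⁻¹) := by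
          rw [key, map_div₀]
          have hc₁' : algebraMap K F c₁ ≠ 0 := by simpa using hc₁
          have hc₂' : algebraMap K F c₂ ≠ 0 := by simpa using hc₂
          field_simp
        rw [this]
        exact O₁.mul_mem _ _ ((hA₁ _).mpr h) h₁
      · rw [key]
        exact h₂
      · rw [key]
        exact h₂'
    · -- `|c₂| ≤ |c₁|`: normalise by `c₁`
      have h' : c₂ / c₁ ∈ A := by
        rwa [inv_div] at h
      refine ⟨c₁⁻¹, inv_ne_zero hc₁, ?_, ?_, Or.inl ?_⟩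
      · rw [key]
        exact h₁
      · have : c₁⁻¹ • u i = algebraMap K F (c₂ / c₁) * (u i * (algebraMap K F c₂)⁻¹) := by
          rw [key, map_div₀]
          have hc₁' : algebraMap K F c₁ ≠ 0 := by simpa using hc₁
          have hc₂' : algebraMap K F c₂ ≠ 0 := by simpa using hc₂
          field_simp
        rw [this]
        exact O₂.mul_mem _ _ ((hA₂ _).mpr h') h₂
      · rw [key]
        exact h₁'
  choose t ht0 ht₁ ht₂ htu using hex
  have ho₁ : IsOrthFamily (K := K) O₁ (fun i => t i • u i) := huo₁.smul t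
  have ho₂ : IsOrthFamily (K := K) O₂ (fun i => t i • u i) := huo₂.smul t
  refine ⟨n, fun i => t i • u i, fun i => W.smul_mem _ (huW i), ht₁, ht₂, ?_, ?_, htu,
    ho₁, ho₂, ?_⟩
  · exact huli.units_smul (fun i => Units.mk0 (t i) (ht0 i))
  · rw [← huspan]
    apply le_antisymm
    · rw [Submodule.span_le]
      rintro _ ⟨i, rfl⟩
      exact Submodule.smul_mem _ _ (Submodule.subset_span ⟨i, rfl⟩)
    · rw [Submodule.span_le]
      rintro _ ⟨i, rfl⟩
      have : u i = (t i)⁻¹ • (t i • u i) := by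
        rw [smul_smul, inv_mul_cancel₀ (ht0 i), one_smul]
      rw [this]
      exact Submodule.smul_mem _ _ (Submodule.subset_span ⟨i, rfl⟩)
  · intro c hc₁ hc₂ i
    have hi₁ := ho₁ c hc₁ i
    have hi₂ := ho₂ c hc₂ i
    have hne : t i • u i ≠ 0 := smul_ne_zero (ht0 i) (huli.ne_zero i)
    have hkey : algebraMap K F (c i) = (c i • (t i • u i)) * (t i • u i)⁻¹ := by
      rw [Algebra.smul_def, mul_assoc, mul_inv_cancel₀ hne, mul_one]
    rcases htu i with h | h
    · rw [← hA₁, hkey]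
      exact O₁.mul_mem _ _ hi₁ h
    · rw [← hA₂, hkey]
      exact O₂.mul_mem _ _ hi₂ h

end Step

end Fermat.Agent.GaussInt
end
end MergeWrap_Lib_GaussInt_TwoVal

section MergeWrap_Lib_GaussInt_TwoValSetup -- from Lib/GaussInt/TwoValSetup.lean

set_option autoImplicit false

noncomputable section

namespace Fermat.Agent.GaussInt

open Fermat.Agent.Deuring

variable {K F k Fk : Type*} [Field K] [Field F] [Algebra K F] [Field k] [Field Fk] [Algebra k Fk]

theorem sum_smul_mem_Ov (S : ValSetup K F k Fk) {ι : Type*} (s : Finset ι) (c : ι → K)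
    (w : ι → F) (hc : ∀ i, c i ∈ S.A) (hw : ∀ i, w i ∈ S.Ov) : ∑ i ∈ s, c i • w i ∈ S.Ov :=
  S.Ov.toSubring.sum_mem fun i _ => S.smul_mem (hc i) (hw i)

theorem red_sum_smul (S : ValSetup K F k Fk) {ι : Type*} (s : Finset ι) (c : ι → K)
    (w : ι → F) (hc : ∀ i, c i ∈ S.A) (hw : ∀ i, w i ∈ S.Ov) :
    S.red (∑ i ∈ s, c i • w i) = ∑ i ∈ s, S.res ⟨c i, hc i⟩ • S.red (w i) := by
  classical
  induction s using Finset.induction_on with
  | empty => simp
  | insert a s ha ih =>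
    rw [Finset.sum_insert ha, Finset.sum_insert ha,
      S.red_add (S.smul_mem (hc a) (hw a)) (sum_smul_mem_Ov S s c w hc hw), ih,
      S.red_smul (hc a) (hw a)]

/-- a normalised combination of a family with independent reductions has nonzero reduction. -/
theorem red_normalised_ne_zero (S : ValSetup K F k Fk) {n : ℕ} (w : Fin n → F)
    (hw : ∀ i, w i ∈ S.Ov) (hli : LinearIndependent k fun i => S.red (w i))
    (c : Fin n → K) (i₀ : Fin n) (hc₀ : c i₀ ≠ 0) (hmax : ∀ i, c i / c i₀ ∈ S.A) :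
    S.red (∑ i, (c i / c i₀) • w i) ≠ 0 := by
  intro h0
  rw [red_sum_smul S _ _ w hmax hw] at h0
  have h1 := Fintype.linearIndependent_iff.mp hli (fun i => S.res ⟨c i / c i₀, hmax i⟩) h0 i₀
  have h2 : (⟨c i₀ / c i₀, hmax i₀⟩ : S.A) = 1 := Subtype.ext (div_self hc₀)
  rw [h2, map_one] at h1
  exact one_ne_zero h1

/-- `Deuring.HasLattice` gives the lattice property in the orthonormal form. -/
theorem orthLattice_of_hasLattice (S : ValSetup K F k Fk) (hL : HasLattice S) :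
    OrthLattice S.A S.Ov := by
  classical
  intro W hW
  obtain ⟨n, w, hwW, hwO, hspan, hli⟩ := hL W hW
  have hmaxex : ∀ c : Fin n → K, (∃ i, c i ≠ 0) →
      ∃ i₀, c i₀ ≠ 0 ∧ ∀ i, c i / c i₀ ∈ S.A := by
    rintro c ⟨i₁, hi₁⟩
    obtain ⟨i₀, -, hmax⟩ := exists_max_entry S.A Finset.univ ⟨i₁, Finset.mem_univ _⟩ c
    have h0 : c i₀ ≠ 0 := by
      rcases hmax i₁ (Finset.mem_univ _) with h | h
      · exact absurd h.2 hi₁
      · exact h.1
    refine ⟨i₀, h0, fun i => ?_⟩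
    rcases hmax i (Finset.mem_univ _) with h | h
    · exact absurd h.1 h0
    · exact h.2
  have hnorm : ∀ (c : Fin n → K) (i₀ : Fin n), c i₀ ≠ 0 →
      ∑ i, (c i / c i₀) • w i = (c i₀)⁻¹ • ∑ i, c i • w i := by
    intro c i₀ _
    rw [Finset.smul_sum]
    refine Finset.sum_congr rfl fun i _ => ?_
    rw [smul_smul, div_eq_inv_mul]
  refine ⟨n, w, hwW, hwO, ?_, hspan, ?_⟩
  · rw [Fintype.linearIndependent_iff]
    intro c hc
    by_contra hne
    rw [not_forall] at hne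
    obtain ⟨i₀, h0, hmax⟩ := hmaxex c hne
    apply red_normalised_ne_zero S w hwO hli c i₀ h0 hmax
    rw [hnorm c i₀ h0, hc, smul_zero, S.red_zero]
  · intro c hc
    by_contra hne
    rw [not_forall] at hne
    obtain ⟨i₁, hi₁⟩ := hne
    have hi₁0 : c i₁ ≠ 0 := by
      rintro h
      rw [h] at hi₁
      exact hi₁ (zero_mem _)
    obtain ⟨i₀, h0, hmax⟩ := hmaxex c ⟨i₁, hi₁0⟩
    have hnot : c i₀ ∉ S.A := by
      intro hin
      apply hi₁
      have : c i₁ = c i₁ / c i₀ * c i₀ := by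
        field_simp
      rw [this]
      exact S.A.mul_mem _ _ (hmax i₁) hin
    obtain ⟨hinv, hres⟩ := S.res_inv_eq_zero hnot
    apply red_normalised_ne_zero S w hwO hli c i₀ h0 hmax
    rw [hnorm c i₀ h0, S.red_smul hinv hc, hres, zero_smul]

theorem scaleProp_of_valSetup (S : ValSetup K F k Fk) : ScaleProp (K := K) S.Ov :=
  S.scale

/-- **TWO-VALUATION LATTICE PROPERTY.** -/
theorem exists_orthonormal_pair {Fk' : Type*} [Field Fk'] [Algebra k Fk']
    (S₁ : ValSetup K F k Fk) (S₂ : ValSetup K F k Fk')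
    (hA : S₁.A = S₂.A)
    (hres : ∀ (c : K) (h₁ : c ∈ S₁.A) (h₂ : c ∈ S₂.A), S₁.res ⟨c, h₁⟩ = S₂.res ⟨c, h₂⟩)
    (hL₁ : HasLattice S₁) (hL₂ : HasLattice S₂)
    (W : Submodule K F) [FiniteDimensional K W] :
    ∃ (n : ℕ) (u : Fin n → F), (∀ i, u i ∈ W) ∧ (∀ i, u i ∈ S₁.Ov) ∧ (∀ i, u i ∈ S₂.Ov) ∧
      LinearIndependent K u ∧ Submodule.span K (Set.range u) = W ∧
      (∀ i, (u i)⁻¹ ∈ S₁.Ov ∨ (u i)⁻¹ ∈ S₂.Ov) ∧
      IsOrthFamily (K := K) S₁.Ov u ∧ IsOrthFamily (K := K) S₂.Ov u ∧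
      (∀ c : Fin n → K, ∑ i, c i • u i ∈ S₁.Ov → ∑ i, c i • u i ∈ S₂.Ov → ∀ i, c i ∈ S₁.A) ∧
      LinearIndependent k (fun i => ((S₁.red (u i), S₂.red (u i)) : Fk × Fk')) := by
  classical
  have hL₂' : OrthLattice S₁.A S₂.Ov := by
    rw [hA]
    exact orthLattice_of_hasLattice S₂ hL₂
  have hA₂ : ∀ c : K, algebraMap K F c ∈ S₂.Ov ↔ c ∈ S₁.A := by
    intro c
    rw [hA]
    exact S₂.mem_Ov_iff c
  obtain ⟨n, u, huW, hu₁, hu₂, huli, huspan, huunit, ho₁, ho₂, horth⟩ :=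
    exists_max_orthonormal S₁.mem_Ov_iff hA₂ (orthLattice_of_hasLattice S₁ hL₁) hL₂'
      S₁.scale S₂.scale W
  refine ⟨n, u, huW, hu₁, hu₂, huli, huspan, huunit, ho₁, ho₂, horth, ?_⟩
  rw [Fintype.linearIndependent_iff]
  intro g hg
  -- lift the coefficients
  choose c hc using fun i => S₁.res_surj (g i)
  have hcA₂ : ∀ i, ((c i : S₁.A) : K) ∈ S₂.A := fun i => hA ▸ (c i).2
  set x : F := ∑ i, ((c i : S₁.A) : K) • u i with hx
  have hx₁ : x ∈ S₁.Ov := sum_smul_mem_Ov S₁ _ _ u (fun i => (c i).2) hu₁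
  have hx₂ : x ∈ S₂.Ov := sum_smul_mem_Ov S₂ _ _ u hcA₂ hu₂
  have hg₁ : ∑ i, g i • S₁.red (u i) = 0 := by
    have := congrArg Prod.fst hg
    simpa only [Prod.fst_sum, Prod.smul_fst, Prod.fst_zero] using this
  have hg₂ : ∑ i, g i • S₂.red (u i) = 0 := by
    have := congrArg Prod.snd hg
    simpa only [Prod.snd_sum, Prod.smul_snd, Prod.snd_zero] using this
  have hr₁ : S₁.red x = 0 := by
    rw [hx, red_sum_smul S₁ _ _ u (fun i => (c i).2) hu₁, ← hg₁]
    refine Finset.sum_congr rfl fun i _ => ?_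
    rw [← hc i]
  have hr₂ : S₂.red x = 0 := by
    rw [hx, red_sum_smul S₂ _ _ u hcA₂ hu₂, ← hg₂]
    refine Finset.sum_congr rfl fun i _ => ?_
    rw [← hc i, hres _ (c i).2 (hcA₂ i)]
  -- `x = 0` or `x` is a constant of absolute value `< 1` times an element of `O₁ ∩ O₂`
  have hzero : ∀ (a : K) (ha : a ∈ S₁.A), a⁻¹ ∉ S₁.A → S₁.res ⟨a, ha⟩ = 0 := by
    intro a ha hinv
    by_cases ha0 : a = 0
    · subst ha0
      exact map_zero S₁.res
    · obtain ⟨h', hres'⟩ := S₁.res_inv_eq_zero hinv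
      have : (⟨a, ha⟩ : S₁.A) = ⟨a⁻¹⁻¹, h'⟩ := Subtype.ext (inv_inv a).symm
      rw [this]
      exact hres'
  intro i
  rw [← hc i]
  by_cases hx0 : x = 0
  · have h := Fintype.linearIndependent_iff.mp huli (fun i => ((c i : S₁.A) : K)) (hx ▸ hx0) i
    have : c i = 0 := Subtype.ext h
    rw [this, map_zero]
  · -- the absolute values of `x`
    obtain ⟨d₁, hd₁, h₁, h₁'⟩ := S₁.scale x hx0
    obtain ⟨d₂, hd₂, h₂, h₂'⟩ := S₂.scale x hx0
    have key : ∀ t : K, t⁻¹ • x = x * (algebraMap K F t)⁻¹ := fun t => by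
      rw [Algebra.smul_def, map_inv₀, mul_comm]
    -- `d₁`, `d₂` are nonunits of `A` with nonintegral inverse
    have hd₁A : d₁ ∈ S₁.A ∧ d₁⁻¹ ∉ S₁.A := by
      have hmem : algebraMap K F d₁ ∈ S₁.Ov := by
        have : algebraMap K F d₁ = x * (x * (algebraMap K F d₁)⁻¹)⁻¹ := by
          have hd : algebraMap K F d₁ ≠ 0 := by simpa using hd₁
          field_simp
        rw [this]
        exact S₁.Ov.mul_mem _ _ hx₁ h₁'
      refine ⟨(S₁.mem_Ov_iff _).mp hmem, fun hinv => ?_⟩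
      have h3 : S₁.red (x * (algebraMap K F d₁)⁻¹) = 0 := by
        rw [← key, S₁.red_smul hinv hx₁, hr₁, smul_zero]
      have hne : x * (algebraMap K F d₁)⁻¹ ≠ 0 :=
        mul_ne_zero hx0 (inv_ne_zero (by simpa using hd₁))
      exact (S₁.red_eq_zero_iff h₁ hne).mp h3 h₁'
    have hd₂A : d₂ ∈ S₁.A ∧ d₂⁻¹ ∉ S₁.A := by
      have hmem : algebraMap K F d₂ ∈ S₂.Ov := by
        have : algebraMap K F d₂ = x * (x * (algebraMap K F d₂)⁻¹)⁻¹ := by
          have hd : algebraMap K F d₂ ≠ 0 := by simpa using hd₂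
          field_simp
        rw [this]
        exact S₂.Ov.mul_mem _ _ hx₂ h₂'
      refine ⟨(hA₂ _).mp hmem, fun hinv => ?_⟩
      have hinv' : d₂⁻¹ ∈ S₂.A := hA ▸ hinv
      have h3 : S₂.red (x * (algebraMap K F d₂)⁻¹) = 0 := by
        rw [← key, S₂.red_smul hinv' hx₂, hr₂, smul_zero]
      have hne : x * (algebraMap K F d₂)⁻¹ ≠ 0 :=
        mul_ne_zero hx0 (inv_ne_zero (by simpa using hd₂))
      exact (S₂.red_eq_zero_iff h₂ hne).mp h3 h₂'
    -- the larger of the two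
    have hexd : ∃ d : K, d ≠ 0 ∧ d ∈ S₁.A ∧ d⁻¹ ∉ S₁.A ∧ d⁻¹ • x ∈ S₁.Ov ∧ d⁻¹ • x ∈ S₂.Ov := by
      have hd₁' : algebraMap K F d₁ ≠ 0 := by simpa using hd₁
      have hd₂' : algebraMap K F d₂ ≠ 0 := by simpa using hd₂
      rcases S₁.A.mem_or_inv_mem (d₁ / d₂) with h | h
      · refine ⟨d₂, hd₂, hd₂A.1, hd₂A.2, ?_, ?_⟩
        · have : d₂⁻¹ • x = algebraMap K F (d₁ / d₂) * (x * (algebraMap K F d₁)⁻¹) := by
            rw [key, map_div₀]
            field_simp
          rw [this]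
          exact S₁.Ov.mul_mem _ _ ((S₁.mem_Ov_iff _).mpr h) h₁
        · rw [key]
          exact h₂
      · have h' : d₂ / d₁ ∈ S₁.A := by rwa [inv_div] at h
        refine ⟨d₁, hd₁, hd₁A.1, hd₁A.2, ?_, ?_⟩
        · rw [key]
          exact h₁
        · have : d₁⁻¹ • x = algebraMap K F (d₂ / d₁) * (x * (algebraMap K F d₂)⁻¹) := by
            rw [key, map_div₀]
            field_simp
          rw [this]
          exact S₂.Ov.mul_mem _ _ ((hA₂ _).mpr h') h₂
    obtain ⟨d, hd0, hdA, hdinv, hdx₁, hdx₂⟩ := hexd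
    have hsum : d⁻¹ • x = ∑ i, (d⁻¹ * ((c i : S₁.A) : K)) • u i := by
      rw [hx, Finset.smul_sum]
      exact Finset.sum_congr rfl fun i _ => smul_smul _ _ _
    rw [hsum] at hdx₁ hdx₂
    have hci := horth _ hdx₁ hdx₂ i
    -- `c i = d * (d⁻¹ c i)` with `res d = 0`
    have hprod : c i = ⟨d, hdA⟩ * ⟨d⁻¹ * ((c i : S₁.A) : K), hci⟩ := by
      apply Subtype.ext
      show ((c i : S₁.A) : K) = d * (d⁻¹ * ((c i : S₁.A) : K))
      rw [← mul_assoc, mul_inv_cancel₀ hd0, one_mul]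
    rw [hprod, map_mul, hzero d hdA hdinv, zero_mul]

end Fermat.Agent.GaussInt
end
end MergeWrap_Lib_GaussInt_TwoValSetup

section MergeWrap_Lib_BadRed_Nodal_RedSpace2 -- from Lib/BadRed/Nodal/RedSpace2.lean

set_option autoImplicit false
set_option linter.unusedSectionVars false

/-!
# Cluster T, WP N4 (b): the PAIR LATTICE (helper18)

`F / K` with two constant reductions `S₁ : ValSetup K F k Fk₁`, `S₂ : ValSetup K F k Fk₂` over the
same valuation ring `A` of `K`, with the same residue map.  For a `K`-subspace `W` of `F`,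

`pairRedSpace S₁ S₂ W = {(red₁ f, red₂ f) : f ∈ W ∩ O₁ ∩ O₂} ⊂ Fk₁ × Fk₂`.

* `mem_pairRedSpace_iff` : the span is the set itself;
* `finrank_pairRedSpace` : **(PL)** `dim_k pairRedSpace W = dim_K W` (both lattice properties,
  from helper5's `GaussInt.exists_orthonormal_pair`);
* `exists_pair_basis` : the orthonormal basis in the form used by the consumers;
* `pairRedSpace_mono`, `mul_mem_pairRedSpace`, `fst_mem_redSpace`, `snd_mem_redSpace`;
* divisor forms: `finrank_pairRedSpace_riemannRochSpace` (`dim V(D) = ℓ(D)`),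
  `mul_mem_pairRedSpace_riemannRochSpace` (`V(D) · V(D') ⊂ V(D + D')`).
-/

noncomputable section

open AlgebraicCurve Fermat.Agent.RR Fermat.Agent.Deuring

namespace Fermat.Agent.BadRed

variable {K F k Fk₁ Fk₂ : Type*} [Field K] [Field F] [Algebra K F]
  [Field k] [Field Fk₁] [Algebra k Fk₁] [Field Fk₂] [Algebra k Fk₂]

/-- the pair of reductions of a function. -/
def pairRed (S₁ : ValSetup K F k Fk₁) (S₂ : ValSetup K F k Fk₂) (f : F) : Fk₁ × Fk₂ :=
  (S₁.red f, S₂.red f)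

/-- the set of pairs of reductions of the elements of `W ∩ O₁ ∩ O₂`. -/
def pairRedSet (S₁ : ValSetup K F k Fk₁) (S₂ : ValSetup K F k Fk₂) (W : Submodule K F) :
    Set (Fk₁ × Fk₂) :=
  {y | ∃ x ∈ W, x ∈ S₁.Ov ∧ x ∈ S₂.Ov ∧ pairRed S₁ S₂ x = y}

/-- the pair reduction of a `K`-subspace `W` of `F`: the `k`-span of the pairs of reductions of
`W ∩ O₁ ∩ O₂` (the span is the set itself, see `mem_pairRedSpace_iff`). -/
def pairRedSpace (S₁ : ValSetup K F k Fk₁) (S₂ : ValSetup K F k Fk₂) (W : Submodule K F) :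
    Submodule k (Fk₁ × Fk₂) :=
  Submodule.span k (pairRedSet S₁ S₂ W)

/-- the two reductions are COMPATIBLE: they lie over the same valuation ring of the constants,
with the same residue map. -/
structure PairCompat (S₁ : ValSetup K F k Fk₁) (S₂ : ValSetup K F k Fk₂) : Prop where
  A_eq : S₁.A = S₂.A
  res_eq : ∀ (c : K) (h₁ : c ∈ S₁.A) (h₂ : c ∈ S₂.A), S₁.res ⟨c, h₁⟩ = S₂.res ⟨c, h₂⟩

variable {S₁ : ValSetup K F k Fk₁} {S₂ : ValSetup K F k Fk₂}

namespace PairCompat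

variable (h : PairCompat S₁ S₂)

include h in
theorem mem₂ {c : K} (hc : c ∈ S₁.A) : c ∈ S₂.A := h.A_eq ▸ hc

include h in
theorem mem₁ {c : K} (hc : c ∈ S₂.A) : c ∈ S₁.A := h.A_eq.symm ▸ hc

end PairCompat

@[simp]
theorem pairRed_zero : pairRed S₁ S₂ 0 = 0 := by
  unfold pairRed
  rw [S₁.red_zero, S₂.red_zero]
  rfl

@[simp]
theorem pairRed_one : pairRed S₁ S₂ 1 = 1 := by
  unfold pairRed
  rw [S₁.red_one, S₂.red_one]
  rfl

theorem pairRed_add {f g : F} (hf₁ : f ∈ S₁.Ov) (hf₂ : f ∈ S₂.Ov) (hg₁ : g ∈ S₁.Ov)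
    (hg₂ : g ∈ S₂.Ov) : pairRed S₁ S₂ (f + g) = pairRed S₁ S₂ f + pairRed S₁ S₂ g := by
  unfold pairRed
  rw [S₁.red_add hf₁ hg₁, S₂.red_add hf₂ hg₂]
  rfl

theorem pairRed_mul {f g : F} (hf₁ : f ∈ S₁.Ov) (hf₂ : f ∈ S₂.Ov) (hg₁ : g ∈ S₁.Ov)
    (hg₂ : g ∈ S₂.Ov) : pairRed S₁ S₂ (f * g) = pairRed S₁ S₂ f * pairRed S₁ S₂ g := by
  unfold pairRed
  rw [S₁.red_mul hf₁ hg₁, S₂.red_mul hf₂ hg₂]
  rfl

theorem pairRed_smul (h : PairCompat S₁ S₂) {c : K} (hc : c ∈ S₁.A) {f : F} (hf₁ : f ∈ S₁.Ov)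
    (hf₂ : f ∈ S₂.Ov) : pairRed S₁ S₂ (c • f) = S₁.res ⟨c, hc⟩ • pairRed S₁ S₂ f := by
  unfold pairRed
  rw [S₁.red_smul hc hf₁, S₂.red_smul (h.mem₂ hc) hf₂, ← h.res_eq c hc (h.mem₂ hc)]
  rfl

theorem pairRed_sum_smul (h : PairCompat S₁ S₂) {ι : Type*} (s : Finset ι) (c : ι → K)
    (w : ι → F) (hc : ∀ i, c i ∈ S₁.A) (hw₁ : ∀ i, w i ∈ S₁.Ov) (hw₂ : ∀ i, w i ∈ S₂.Ov) :
    pairRed S₁ S₂ (∑ i ∈ s, c i • w i) = ∑ i ∈ s, S₁.res ⟨c i, hc i⟩ • pairRed S₁ S₂ (w i) := by
  classical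
  induction s using Finset.induction_on with
  | empty => simp
  | insert a s ha ih =>
    rw [Finset.sum_insert ha, Finset.sum_insert ha,
      pairRed_add (S₁.smul_mem (hc a) (hw₁ a)) (S₂.smul_mem (h.mem₂ (hc a)) (hw₂ a))
        (Fermat.Agent.GaussInt.sum_smul_mem_Ov S₁ s c w hc hw₁)
        (Fermat.Agent.GaussInt.sum_smul_mem_Ov S₂ s c w (fun i => h.mem₂ (hc i)) hw₂),
      ih, pairRed_smul h (hc a) (hw₁ a) (hw₂ a)]

theorem zero_mem_pairRedSet (W : Submodule K F) : (0 : Fk₁ × Fk₂) ∈ pairRedSet S₁ S₂ W :=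
  ⟨0, zero_mem _, zero_mem _, zero_mem _, pairRed_zero⟩

theorem add_mem_pairRedSet (W : Submodule K F) {y y' : Fk₁ × Fk₂}
    (hy : y ∈ pairRedSet S₁ S₂ W) (hy' : y' ∈ pairRedSet S₁ S₂ W) :
    y + y' ∈ pairRedSet S₁ S₂ W := by
  obtain ⟨x, hxW, hx₁, hx₂, rfl⟩ := hy
  obtain ⟨x', hxW', hx₁', hx₂', rfl⟩ := hy'
  exact ⟨x + x', add_mem hxW hxW', add_mem hx₁ hx₁', add_mem hx₂ hx₂',
    pairRed_add hx₁ hx₂ hx₁' hx₂'⟩

theorem smul_mem_pairRedSet (h : PairCompat S₁ S₂) (W : Submodule K F) (l : k)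
    {y : Fk₁ × Fk₂} (hy : y ∈ pairRedSet S₁ S₂ W) : l • y ∈ pairRedSet S₁ S₂ W := by
  obtain ⟨x, hxW, hx₁, hx₂, rfl⟩ := hy
  obtain ⟨⟨a, ha⟩, rfl⟩ := S₁.res_surj l
  exact ⟨a • x, W.smul_mem a hxW, S₁.smul_mem ha hx₁, S₂.smul_mem (h.mem₂ ha) hx₂,
    pairRed_smul h ha hx₁ hx₂⟩

/-- the span is the set itself. -/
theorem mem_pairRedSpace_iff (h : PairCompat S₁ S₂) (W : Submodule K F) {y : Fk₁ × Fk₂} :
    y ∈ pairRedSpace S₁ S₂ W ↔ ∃ x ∈ W, x ∈ S₁.Ov ∧ x ∈ S₂.Ov ∧ pairRed S₁ S₂ x = y := by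
  constructor
  · intro hy
    unfold pairRedSpace at hy
    induction hy using Submodule.span_induction with
    | mem y hy => exact hy
    | zero => exact zero_mem_pairRedSet W
    | add y y' _ _ hy hy' => exact add_mem_pairRedSet W hy hy'
    | smul l y _ hy => exact smul_mem_pairRedSet h W l hy
  · intro hy
    exact Submodule.subset_span hy

theorem pairRed_mem_pairRedSpace (W : Submodule K F) {x : F} (hxW : x ∈ W) (hx₁ : x ∈ S₁.Ov)
    (hx₂ : x ∈ S₂.Ov) : pairRed S₁ S₂ x ∈ pairRedSpace S₁ S₂ W :=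
  Submodule.subset_span ⟨x, hxW, hx₁, hx₂, rfl⟩

theorem pairRedSpace_mono {W W' : Submodule K F} (hle : W ≤ W') :
    pairRedSpace S₁ S₂ W ≤ pairRedSpace S₁ S₂ W' := by
  apply Submodule.span_mono
  rintro y ⟨x, hxW, hx₁, hx₂, rfl⟩
  exact ⟨x, hle hxW, hx₁, hx₂, rfl⟩

/-- the first component of an element of the pair reduction lies in the first reduction. -/
theorem fst_mem_redSpace (h : PairCompat S₁ S₂) (W : Submodule K F) {y : Fk₁ × Fk₂}
    (hy : y ∈ pairRedSpace S₁ S₂ W) : y.1 ∈ redSpace S₁ W := by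
  obtain ⟨x, hxW, hx₁, -, rfl⟩ := (mem_pairRedSpace_iff h W).mp hy
  exact red_mem_redSpace S₁ W hxW hx₁

/-- the second component of an element of the pair reduction lies in the second reduction. -/
theorem snd_mem_redSpace (h : PairCompat S₁ S₂) (W : Submodule K F) {y : Fk₁ × Fk₂}
    (hy : y ∈ pairRedSpace S₁ S₂ W) : y.2 ∈ redSpace S₂ W := by
  obtain ⟨x, hxW, -, hx₂, rfl⟩ := (mem_pairRedSpace_iff h W).mp hy
  exact red_mem_redSpace S₂ W hxW hx₂

/-- products: `V(W) · V(W') ⊂ V(W'')` if `W · W' ⊂ W''`. -/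
theorem mul_mem_pairRedSpace (h : PairCompat S₁ S₂) {W W' W'' : Submodule K F}
    (hmul : ∀ x ∈ W, ∀ x' ∈ W', x * x' ∈ W'') {y y' : Fk₁ × Fk₂}
    (hy : y ∈ pairRedSpace S₁ S₂ W) (hy' : y' ∈ pairRedSpace S₁ S₂ W') :
    y * y' ∈ pairRedSpace S₁ S₂ W'' := by
  obtain ⟨x, hxW, hx₁, hx₂, rfl⟩ := (mem_pairRedSpace_iff h W).mp hy
  obtain ⟨x', hxW', hx₁', hx₂', rfl⟩ := (mem_pairRedSpace_iff h W').mp hy'
  rw [← pairRed_mul hx₁ hx₂ hx₁' hx₂']
  exact pairRed_mem_pairRedSpace W'' (hmul x hxW x' hxW') (mul_mem hx₁ hx₁') (mul_mem hx₂ hx₂')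

/-- the constants of the pair reduction: `(c, c)`. -/
theorem algebraMap_mem_pairRedSpace (h : PairCompat S₁ S₂) {W : Submodule K F}
    (h1 : (1 : F) ∈ W) (c : k) :
    ((algebraMap k Fk₁ c, algebraMap k Fk₂ c) : Fk₁ × Fk₂) ∈ pairRedSpace S₁ S₂ W := by
  obtain ⟨⟨a, ha⟩, rfl⟩ := S₁.res_surj c
  have hmem : algebraMap K F a ∈ W := by
    rw [Algebra.algebraMap_eq_smul_one]
    exact W.smul_mem a h1
  have e : pairRed S₁ S₂ (algebraMap K F a)
      = (algebraMap k Fk₁ (S₁.res ⟨a, ha⟩), algebraMap k Fk₂ (S₁.res ⟨a, ha⟩)) := by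
    unfold pairRed
    rw [S₁.red_algebraMap ha, S₂.red_algebraMap (h.mem₂ ha), ← h.res_eq a ha (h.mem₂ ha)]
  rw [← e]
  exact pairRed_mem_pairRedSpace W hmem (S₁.algebraMap_mem ha) (S₂.algebraMap_mem (h.mem₂ ha))

/-- **orthonormal basis for the pair**: every finite-dimensional subspace `W` has a `K`-basis
`u` in `O₁ ∩ O₂` with `W ∩ O₁ ∩ O₂ = ⊕ A uᵢ` and `k`-linearly independent pairs of
reductions. -/
theorem exists_pair_basis (h : PairCompat S₁ S₂) (hL₁ : HasLattice S₁) (hL₂ : HasLattice S₂)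
    (W : Submodule K F) [FiniteDimensional K W] :
    ∃ (n : ℕ) (u : Fin n → F), (∀ i, u i ∈ W) ∧ (∀ i, u i ∈ S₁.Ov) ∧ (∀ i, u i ∈ S₂.Ov) ∧
      LinearIndependent K u ∧ Submodule.span K (Set.range u) = W ∧
      (∀ c : Fin n → K, ∑ i, c i • u i ∈ S₁.Ov → ∑ i, c i • u i ∈ S₂.Ov → ∀ i, c i ∈ S₁.A) ∧
      LinearIndependent k (fun i => pairRed S₁ S₂ (u i)) := by
  obtain ⟨n, u, huW, hu₁, hu₂, huli, huspan, -, -, -, horth, hli⟩ :=
    Fermat.Agent.GaussInt.exists_orthonormal_pair S₁ S₂ h.A_eq h.res_eq hL₁ hL₂ W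
  exact ⟨n, u, huW, hu₁, hu₂, huli, huspan, horth, hli⟩

/-- the pair reduction of `W` is spanned by the pairs of reductions of a pair basis. -/
theorem pairRedSpace_eq_span (h : PairCompat S₁ S₂) {W : Submodule K F} {n : ℕ}
    {u : Fin n → F} (hu₁ : ∀ i, u i ∈ S₁.Ov) (hu₂ : ∀ i, u i ∈ S₂.Ov)
    (hspan : Submodule.span K (Set.range u) = W)
    (horth : ∀ c : Fin n → K, ∑ i, c i • u i ∈ S₁.Ov → ∑ i, c i • u i ∈ S₂.Ov →
      ∀ i, c i ∈ S₁.A) :
    pairRedSpace S₁ S₂ W = Submodule.span k (Set.range fun i => pairRed S₁ S₂ (u i)) := by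
  apply le_antisymm
  · intro y hy
    obtain ⟨x, hxW, hx₁, hx₂, rfl⟩ := (mem_pairRedSpace_iff h W).mp hy
    rw [← hspan] at hxW
    obtain ⟨c, rfl⟩ := (Submodule.mem_span_range_iff_exists_fun K).mp hxW
    have hc := horth c hx₁ hx₂
    rw [pairRed_sum_smul h _ c u hc hu₁ hu₂]
    exact Submodule.sum_mem _ fun i _ =>
      Submodule.smul_mem _ _ (Submodule.subset_span ⟨i, rfl⟩)
  · rw [Submodule.span_le]
    rintro y ⟨i, rfl⟩
    refine pairRed_mem_pairRedSpace W ?_ (hu₁ i) (hu₂ i)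
    rw [← hspan]
    exact Submodule.subset_span ⟨i, rfl⟩

/-- **(PL) the PAIR LATTICE property**: `dim_k {(red₁ f, red₂ f) : f ∈ W ∩ O₁ ∩ O₂} = dim_K W`. -/
theorem finrank_pairRedSpace (h : PairCompat S₁ S₂) (hL₁ : HasLattice S₁) (hL₂ : HasLattice S₂)
    (W : Submodule K F) [FiniteDimensional K W] :
    Module.finrank k (pairRedSpace S₁ S₂ W) = Module.finrank K W := by
  obtain ⟨n, u, -, hu₁, hu₂, huli, hspan, horth, hli⟩ := exists_pair_basis h hL₁ hL₂ W
  have h1 : Module.finrank K W = n := by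
    rw [← hspan, finrank_span_eq_card huli, Fintype.card_fin]
  have h2 : Module.finrank k (pairRedSpace S₁ S₂ W) = n := by
    rw [pairRedSpace_eq_span h hu₁ hu₂ hspan horth, finrank_span_eq_card hli, Fintype.card_fin]
  rw [h1, h2]

theorem finiteDimensional_pairRedSpace (h : PairCompat S₁ S₂) (hL₁ : HasLattice S₁)
    (hL₂ : HasLattice S₂) (W : Submodule K F) [FiniteDimensional K W] :
    FiniteDimensional k (pairRedSpace S₁ S₂ W) := by
  obtain ⟨n, u, -, hu₁, hu₂, -, hspan, horth, -⟩ := exists_pair_basis h hL₁ hL₂ W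
  rw [pairRedSpace_eq_span h hu₁ hu₂ hspan horth]
  exact FiniteDimensional.span_of_finite k (Set.finite_range _)

/-- a nonzero element of `W` has, after scaling by a constant, a nonzero pair reduction in
`V(W)`: `W ≠ 0 ⟹ V(W) ≠ 0`, pointwise form. -/
theorem exists_smul_pairRed_ne_zero (h : PairCompat S₁ S₂) {x : F} (hx : x ≠ 0) :
    ∃ c : K, c ≠ 0 ∧ c • x ∈ S₁.Ov ∧ c • x ∈ S₂.Ov ∧ pairRed S₁ S₂ (c • x) ≠ 0 := by
  obtain ⟨d₁, hd₁, h₁, h₁'⟩ := S₁.scale x hx
  obtain ⟨d₂, hd₂, h₂, h₂'⟩ := S₂.scale x hx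
  have key : ∀ t : K, t⁻¹ • x = x * (algebraMap K F t)⁻¹ := fun t => by
    rw [Algebra.smul_def, map_inv₀, mul_comm]
  have hd₁' : algebraMap K F d₁ ≠ 0 := by simpa using hd₁
  have hd₂' : algebraMap K F d₂ ≠ 0 := by simpa using hd₂
  rcases S₁.A.mem_or_inv_mem (d₁ / d₂) with hq | hq
  · -- `|d₁| ≤ |d₂|`: scale by `d₂⁻¹`
    refine ⟨d₂⁻¹, inv_ne_zero hd₂, ?_, ?_, ?_⟩
    · have : d₂⁻¹ • x = algebraMap K F (d₁ / d₂) * (x * (algebraMap K F d₁)⁻¹) := by
        rw [key, map_div₀]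
        field_simp
      rw [this]
      exact S₁.Ov.mul_mem _ _ ((S₁.mem_Ov_iff _).mpr hq) h₁
    · rw [key]
      exact h₂
    · intro h0
      have h02 : S₂.red (d₂⁻¹ • x) = 0 := congrArg Prod.snd h0
      rw [key] at h02
      exact S₂.red_ne_zero h₂ h₂' (mul_ne_zero hx (inv_ne_zero hd₂')) h02
  · have hq' : d₂ / d₁ ∈ S₁.A := by rwa [inv_div] at hq
    refine ⟨d₁⁻¹, inv_ne_zero hd₁, ?_, ?_, ?_⟩
    · rw [key]
      exact h₁
    · have : d₁⁻¹ • x = algebraMap K F (d₂ / d₁) * (x * (algebraMap K F d₂)⁻¹) := by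
        rw [key, map_div₀]
        field_simp
      rw [this]
      exact S₂.Ov.mul_mem _ _ ((S₂.mem_Ov_iff _).mpr (h.mem₂ hq')) h₂
    · intro h0
      have h01 : S₁.red (d₁⁻¹ • x) = 0 := congrArg Prod.fst h0
      rw [key] at h01
      exact S₁.red_ne_zero h₁ h₁' (mul_ne_zero hx (inv_ne_zero hd₁')) h01

/-! ### Divisor forms -/

/-- **(PL)** for Riemann-Roch spaces: `dim_k V(D) = ℓ(D)`. -/
theorem finrank_pairRedSpace_riemannRochSpace (h : PairCompat S₁ S₂) (hL₁ : HasLattice S₁)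
    (hL₂ : HasLattice S₂) (D : Divisor K F) :
    Module.finrank k (pairRedSpace S₁ S₂ (riemannRochSpace D)) = ell D := by
  have : FiniteDimensional K (riemannRochSpace D) := finite_riemannRochSpace S₁.hF D
  exact finrank_pairRedSpace h hL₁ hL₂ (riemannRochSpace D)

theorem finiteDimensional_pairRedSpace_riemannRochSpace (h : PairCompat S₁ S₂)
    (hL₁ : HasLattice S₁) (hL₂ : HasLattice S₂) (D : Divisor K F) :
    FiniteDimensional k (pairRedSpace S₁ S₂ (riemannRochSpace D)) := by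
  have : FiniteDimensional K (riemannRochSpace D) := finite_riemannRochSpace S₁.hF D
  exact finiteDimensional_pairRedSpace h hL₁ hL₂ (riemannRochSpace D)

/-- `V(D) · V(D') ⊂ V(D + D')`. -/
theorem mul_mem_pairRedSpace_riemannRochSpace (h : PairCompat S₁ S₂) {D D' : Divisor K F}
    {y y' : Fk₁ × Fk₂} (hy : y ∈ pairRedSpace S₁ S₂ (riemannRochSpace D))
    (hy' : y' ∈ pairRedSpace S₁ S₂ (riemannRochSpace D')) :
    y * y' ∈ pairRedSpace S₁ S₂ (riemannRochSpace (D + D')) :=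
  mul_mem_pairRedSpace h (fun _ hx _ hx' => mul_mem_riemannRochSpace_add hx hx') hy hy'

/-- `V(D) ⊂ V(D')` for `D ≤ D'`. -/
theorem pairRedSpace_riemannRochSpace_mono {D D' : Divisor K F} (hle : D ≤ D') :
    pairRedSpace S₁ S₂ (riemannRochSpace D) ≤ pairRedSpace S₁ S₂ (riemannRochSpace D') :=
  pairRedSpace_mono (riemannRochSpace_mono hle)

end Fermat.Agent.BadRed
end
end MergeWrap_Lib_BadRed_Nodal_RedSpace2
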