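import Mathlib
import Fermat.Agent.MU.Lib.BadRed.Nodal.Setup

section MergeWrap_Lib_BadRed_Nodal_NSDef -- from Lib/BadRed/Nodal/NSDef.lean

set_option autoImplicit false

/-!
# Cluster T, N2: the nodal "non-special generic points" package `NodalNS` and the statements of
the sub-packages of the nodal KEY LEMMA

* `NodalNS N g` : the two-component analogue of `Fermat.Agent.S18Key.NSData`.
* `NodalJacobiStatement` (N2c): Jacobi inversion in the kernel of reduction.
* `NodalMainStatement` (N2a): `m (∑ P i - ∑ R i)` principal, `P i` in the disc of `Rb i`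
  ⇒ `P i = R i`.
* `NodalKeyOfNS` (N2a + N2c): the KEY LEMMA with `NodalNS` as a hypothesis.
-/

noncomputable section

open AlgebraicCurve Fermat.Agent.RR Fermat.Agent.Deuring

namespace Fermat.Agent.BadRed

variable {K F k Fk₁ Fk₂ : Type*} [Field K] [Field F] [Algebra K F]
  [Field k] [Field Fk₁] [Algebra k Fk₁] [Field Fk₂] [Algebra k Fk₂]

/-- the order of the pair of functions `(a, b)` at a point of `C₁ ⊔ C₂`. -/
def pairOrd (Q : Place k Fk₁ ⊕ Place k Fk₂) (a : Fk₁) (b : Fk₂) : ℤ :=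
  Sum.elim (fun Q₁ => Q₁.ord a) (fun Q₂ => Q₂.ord b) Q

@[simp] theorem pairOrd_inl (Q : Place k Fk₁) (a : Fk₁) (b : Fk₂) :
    pairOrd (Sum.inl Q : Place k Fk₁ ⊕ Place k Fk₂) a b = Q.ord a := rfl

@[simp] theorem pairOrd_inr (Q : Place k Fk₂) (a : Fk₁) (b : Fk₂) :
    pairOrd (Sum.inr Q : Place k Fk₁ ⊕ Place k Fk₂) a b = Q.ord b := rfl

variable {ι : Type*}

/-- The nodal "non-special generic points" package: `g` distinct smooth points `Rb i` of the
special fibre `C₁ ∪ C₂`, lifts `R i`, parameters `t i` (units of BOTH valuation rings) and an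
ordinary base point `P0`. -/
structure NodalNS (N : NodalSetup K F k Fk₁ Fk₂ ι) (g : ℕ) where
  Rb : Fin g → Place k Fk₁ ⊕ Place k Fk₂
  Rb_inj : Function.Injective Rb
  R : Fin g → Place K F
  r_R : ∀ i, N.r (R i) = some (Rb i)
  t : Fin g → F
  t_mem₁ : ∀ i, t i ∈ N.S₁.Ov
  t_mem₂ : ∀ i, t i ∈ N.S₂.Ov
  /-- `t i` is a unit of the first valuation ring -/
  t_red₁ : ∀ i, N.S₁.red (t i) ≠ 0
  /-- `t i` is a unit of the second valuation ring -/
  t_red₂ : ∀ i, N.S₂.red (t i) ≠ 0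
  /-- the reduction of `t i` (on the component of `Rb i`) is a local parameter at `Rb i` -/
  ord_t_self : ∀ i, pairOrd (Rb i) (N.S₁.red (t i)) (N.S₂.red (t i)) = 1
  /-- the reduction of `t i` is a unit at `Rb j`, `j ≠ i` -/
  ord_t_other : ∀ i j, i ≠ j → pairOrd (Rb j) (N.S₁.red (t i)) (N.S₂.red (t i)) = 0
  /-- `t i` has no pole in the residue discs of the `Rb j` -/
  t_reg : ∀ i j P, N.r P = some (Rb j) → 0 ≤ P.ord (t i)
  /-- `t i` vanishes at `R i` -/
  t_R : ∀ i, 0 < (R i).ord (t i)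
  /-- nodal pairs with at most simple poles at the `Rb i` are constant -/
  nonspecial : ∀ (a : Fk₁) (b : Fk₂), N.IsNodalFn a b →
    (∀ Q : Place k Fk₁, (∀ i, Rb i ≠ Sum.inl Q) → 0 ≤ Q.ord a) →
    (∀ Q : Place k Fk₂, (∀ i, Rb i ≠ Sum.inr Q) → 0 ≤ Q.ord b) →
    (∀ i, -1 ≤ pairOrd (Rb i) a b) →
    ∃ c : k, a = algebraMap k Fk₁ c ∧ b = algebraMap k Fk₂ c
  /-- an ordinary base point outside the discs -/
  P0 : Place K F
  P0_ord : N.IsOrd P0
  r_P0 : ∀ i, N.r P0 ≠ some (Rb i)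

/-- **(N2c) nodal Jacobi inversion**: a divisor of degree `0` in the kernel of reduction is
linearly equivalent to `∑ P i - ∑ R i` with `P i` in the residue disc of `Rb i`. -/
def NodalJacobiStatement (N : NodalSetup K F k Fk₁ Fk₂ ι) (g : ℕ) (NS : NodalNS N g) : Prop :=
  genusFF K F = g → ∀ D : Divisor K F, Divisor.degree D = 0 → N.RedTrivial D →
    ∃ (φ : F) (P : Fin g → Place K F), φ ≠ 0 ∧ (∀ i, N.r (P i) = some (NS.Rb i)) ∧
      ∀ v : Place K F, D v + v.ord φ =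
        ∑ i, (Finsupp.single (P i) (1 : ℤ) v - Finsupp.single (NS.R i) (1 : ℤ) v)

/-- **(N2a) the main step**: if `u₀` has divisor `m * ∑ (P i - R i)` with `P i` in the residue
disc of `Rb i` and `m` a unit of `A`, then `P i = R i` for all `i`. -/
def NodalMainStatement (N : NodalSetup K F k Fk₁ Fk₂ ι) (g : ℕ) (NS : NodalNS N g) : Prop :=
  ∀ m : ℕ, (m : K) ≠ 0 → ((m : K))⁻¹ ∈ N.S₁.A →
    ∀ P : Fin g → Place K F, (∀ i, N.r (P i) = some (NS.Rb i)) →
    ∀ u₀ : F, u₀ ≠ 0 →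
      (∀ v : Place K F, v.ord u₀ =
        m * ∑ i, (Finsupp.single (P i) (1 : ℤ) v - Finsupp.single (NS.R i) (1 : ℤ) v)) →
      ∀ i, P i = NS.R i

/-- **the nodal KEY LEMMA, with `NodalNS` as a hypothesis** (no genus relation needed here: it is
used to produce `NodalNS`). -/
def NodalKeyOfNS (N : NodalSetup K F k Fk₁ Fk₂ ι) : Prop :=
  Nonempty (NodalNS N (genusFF K F)) →
    ∀ m : ℕ, (m : K) ≠ 0 → ((m : K))⁻¹ ∈ N.S₁.A →
    ∀ D : Divisor K F, Divisor.degree D = 0 → N.RedTrivial D →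
      (m • D) ∈ Divisor.principal (K := K) (F := F) →
      D ∈ Divisor.principal (K := K) (F := F)

/-- the KEY LEMMA from its two steps (`key_lemma` of S18, verbatim). -/
theorem nodalKeyOfNS_of_steps (N : NodalSetup K F k Fk₁ Fk₂ ι)
    (hJ : ∀ NS : NodalNS N (genusFF K F), NodalJacobiStatement N _ NS)
    (hM : ∀ NS : NodalNS N (genusFF K F), NodalMainStatement N _ NS) : NodalKeyOfNS N := by
  rintro ⟨NS⟩ m hm0 hmA D hdeg hred hmD
  obtain ⟨φ, P, hφ, hP, hE⟩ := hJ NS rfl D hdeg hred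
  obtain ⟨f₁, hf₁, hf₁d⟩ := hmD
  have hmain := hM NS m hm0 hmA P hP (f₁ * φ ^ m) (mul_ne_zero hf₁ (pow_ne_zero _ hφ))
    (fun v => by
      rw [v.ord_mul hf₁ (pow_ne_zero _ hφ), ← hf₁d, ← hE v, Finsupp.smul_apply]
      have hpow : ∀ n : ℕ, v.ord (φ ^ n) = n * v.ord φ := by
        intro n
        induction n with
        | zero => simp
        | succ k ihk => rw [pow_succ, v.ord_mul (pow_ne_zero _ hφ) hφ, ihk]; push_cast; ring
      rw [hpow m]
      simp only [nsmul_eq_mul]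
      ring)
  refine ⟨φ⁻¹, inv_ne_zero hφ, fun v => ?_⟩
  rw [v.ord_inv]
  have h := hE v
  rw [Finset.sum_eq_zero (fun i _ => by rw [hmain i, sub_self])] at h
  omega

end Fermat.Agent.BadRed
end
end MergeWrap_Lib_BadRed_Nodal_NSDef
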