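import Mathlib
import Fermat.Agent.S18.KeyLocal
import Fermat.Agent.MU.Lib.BadRed.Nodal.NSDef

section MergeWrap_Lib_BadRed_Nodal_Side -- from Lib/BadRed/Nodal/Side.lean

set_option autoImplicit false

/-!
# Cluster T, N2a: one side of a nodal reduction (`NSide`), basic calculus

Port of `Fermat.Agent.S18.KeyBasic` / `KeyLocal` (helper61) to a PARTIAL reduction map
`r : Place K F → Option X` (`X = Place k Fk₁ ⊕ Place k Fk₂` in the application, `emb = Sum.inl`
or `Sum.inr`), with `push` only at the smooth points `sm Q`.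
-/

noncomputable section

open AlgebraicCurve

namespace Fermat.Agent.BadRed

/-- One side of a nodal reduction: a `RedSetup` with a partial reduction map. -/
structure NSide (K F k Fk X : Type*) [Field K] [Field F] [Algebra K F]
    [Field k] [Field Fk] [Algebra k Fk] where
  /-- the valuation ring of the constant field -/
  A : ValuationSubring K
  /-- the (Gauss) valuation ring of the function field -/
  Ov : ValuationSubring F
  /-- residue map of the constants -/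
  res : A →+* k
  /-- residue map of the function field -/
  ρ : Ov →+* Fk
  /-- partial reduction of places -/
  r : Place K F → Option X
  /-- the component, inside the special fibre -/
  emb : Place k Fk → X
  /-- the smooth points of the component -/
  sm : Place k Fk → Prop
  hF : Fermat.Agent.RR.IsRRField K F
  mem_Ov_iff : ∀ c : K, algebraMap K F c ∈ Ov ↔ c ∈ A
  ρ_algebraMap : ∀ (c : K) (hc : c ∈ A) (hc' : algebraMap K F c ∈ Ov),
    ρ ⟨algebraMap K F c, hc'⟩ = algebraMap k Fk (res ⟨c, hc⟩)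
  ρ_eq_zero_iff : ∀ f : Ov, ρ f = 0 ↔ ¬ IsUnit f
  scale : ∀ f : F, f ≠ 0 → ∃ c : K, c ≠ 0 ∧
    f * (algebraMap K F c)⁻¹ ∈ Ov ∧ (f * (algebraMap K F c)⁻¹)⁻¹ ∈ Ov
  /-- `r_* (div f) = div (ρ f)` at the smooth points, for units `f` of `Ov` -/
  push : ∀ (f : F) (hf : f ∈ Ov), f⁻¹ ∈ Ov → f ≠ 0 → ∀ Q : Place k Fk, sm Q →
    Finsupp.mapDomain r (Fermat.Agent.RR.divOf hF f) (some (emb Q)) = Q.ord (ρ ⟨f, hf⟩)

namespace NK

open Fermat.Agent.S18Key (ord_neg' ord_nonneg_add ord_nonneg_sub ord_nonneg_mul ord_const_nonneg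
  ord_one_nonneg ord_add_ge_of_ge ord_add_eq_of_lt mapDomain_apply_eq_sum sum_le_mapDomain
  mapDomain_nonneg le_mapDomain add_le_mapDomain kl_ord_const_mul kl_ord_mul_const
  kl_ord_div_const kl_ord_sum_ge kl_ord_prod kl_ord_pow kl_ord_sub_ge_of_ge
  kl_ne_zero_of_ord_ne_zero kl_const_eq_zero_of_ord_pos)

variable {K F k Fk X : Type*} [Field K] [Field F] [Algebra K F] [Field k] [Field Fk]
  [Algebra k Fk]

variable (S : NSide K F k Fk X)

open Classical in
/-- the residue map as a total function (zero outside `Ov`). -/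
def _root_.Fermat.Agent.BadRed.NSide.red (x : F) : Fk := if h : x ∈ S.Ov then S.ρ ⟨x, h⟩ else 0

/-- units of `Ov`. -/
structure _root_.Fermat.Agent.BadRed.NSide.IsU (x : F) : Prop where
  ne_zero : x ≠ 0
  mem : x ∈ S.Ov
  inv_mem : x⁻¹ ∈ S.Ov

variable {S}

theorem red_of_mem {x : F} (h : x ∈ S.Ov) : S.red x = S.ρ ⟨x, h⟩ := by
  unfold NSide.red
  rw [dif_pos h]

theorem red_zero : S.red (0 : F) = 0 := by
  rw [red_of_mem (zero_mem _)]
  exact map_zero S.ρ

theorem red_one : S.red (1 : F) = 1 := by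
  rw [red_of_mem (one_mem _)]
  exact map_one S.ρ

theorem red_add {x y : F} (hx : x ∈ S.Ov) (hy : y ∈ S.Ov) : S.red (x + y) = S.red x + S.red y := by
  rw [red_of_mem hx, red_of_mem hy, red_of_mem (add_mem hx hy), ← map_add]
  rfl

theorem red_mul {x y : F} (hx : x ∈ S.Ov) (hy : y ∈ S.Ov) : S.red (x * y) = S.red x * S.red y := by
  rw [red_of_mem hx, red_of_mem hy, red_of_mem (mul_mem hx hy), ← map_mul]
  rfl

theorem red_neg {x : F} (hx : x ∈ S.Ov) : S.red (-x) = -S.red x := by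
  rw [red_of_mem hx, red_of_mem (neg_mem hx), ← map_neg]
  rfl

theorem red_sub {x y : F} (hx : x ∈ S.Ov) (hy : y ∈ S.Ov) : S.red (x - y) = S.red x - S.red y := by
  rw [sub_eq_add_neg, red_add hx (neg_mem hy), red_neg hy, sub_eq_add_neg]

theorem red_pow {x : F} (hx : x ∈ S.Ov) (n : ℕ) : S.red (x ^ n) = S.red x ^ n := by
  rw [red_of_mem hx, red_of_mem (pow_mem hx n), ← map_pow]
  rfl

theorem isUnit_iff_inv_mem (a : S.Ov) : IsUnit a ↔ (a : F) ≠ 0 ∧ (a : F)⁻¹ ∈ S.Ov := by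
  constructor
  · intro h
    obtain ⟨b, hb⟩ := isUnit_iff_exists_inv.mp h
    have h1 : (a : F) * (b : F) = 1 := by
      have := congrArg (Subtype.val) hb
      simpa using this
    have hne : (a : F) ≠ 0 := left_ne_zero_of_mul_eq_one h1
    refine ⟨hne, ?_⟩
    have : (a : F)⁻¹ = (b : F) := inv_eq_of_mul_eq_one_right h1
    rw [this]
    exact b.2
  · rintro ⟨hne, hinv⟩
    exact ⟨⟨a, ⟨(a : F)⁻¹, hinv⟩, Subtype.ext (mul_inv_cancel₀ hne),
      Subtype.ext (inv_mul_cancel₀ hne)⟩, rfl⟩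

theorem red_eq_zero_iff {x : F} (hx : x ∈ S.Ov) : S.red x = 0 ↔ x = 0 ∨ x⁻¹ ∉ S.Ov := by
  rw [red_of_mem hx, S.ρ_eq_zero_iff, isUnit_iff_inv_mem]
  simp only [not_and_or, not_not]

theorem red_ne_zero_iff {x : F} (hx : x ∈ S.Ov) : S.red x ≠ 0 ↔ S.IsU x := by
  rw [Ne, red_eq_zero_iff hx, not_or, not_not]
  exact ⟨fun h => ⟨h.1, hx, h.2⟩, fun h => ⟨h.ne_zero, h.inv_mem⟩⟩


theorem _root_.Fermat.Agent.BadRed.NSide.IsU.red_ne_zero {x : F} (h : S.IsU x) : S.red x ≠ 0 := (red_ne_zero_iff h.mem).mpr h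

theorem _root_.Fermat.Agent.BadRed.NSide.IsU.inv {x : F} (h : S.IsU x) : S.IsU x⁻¹ :=
  ⟨inv_ne_zero h.ne_zero, h.inv_mem, by rw [inv_inv]; exact h.mem⟩

theorem _root_.Fermat.Agent.BadRed.NSide.IsU.mul {x y : F} (hx : S.IsU x) (hy : S.IsU y) : S.IsU (x * y) :=
  ⟨mul_ne_zero hx.ne_zero hy.ne_zero, mul_mem hx.mem hy.mem, by
    rw [mul_inv]; exact mul_mem hx.inv_mem hy.inv_mem⟩

theorem _root_.Fermat.Agent.BadRed.NSide.IsU.div {x y : F} (hx : S.IsU x) (hy : S.IsU y) : S.IsU (x / y) := by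
  rw [div_eq_mul_inv]; exact hx.mul hy.inv

theorem _root_.Fermat.Agent.BadRed.NSide.IsU.pow {x : F} (hx : S.IsU x) (n : ℕ) : S.IsU (x ^ n) :=
  ⟨pow_ne_zero n hx.ne_zero, pow_mem hx.mem n, by rw [← inv_pow]; exact pow_mem hx.inv_mem n⟩

theorem isU_one : S.IsU (1 : F) := ⟨one_ne_zero, one_mem _, by rw [inv_one]; exact one_mem _⟩

theorem _root_.Fermat.Agent.BadRed.NSide.IsU.neg {x : F} (hx : S.IsU x) : S.IsU (-x) :=
  ⟨neg_ne_zero.mpr hx.ne_zero, neg_mem hx.mem, by rw [inv_neg]; exact neg_mem hx.inv_mem⟩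

theorem _root_.Fermat.Agent.BadRed.NSide.IsU.red_inv {x : F} (h : S.IsU x) : S.red x⁻¹ = (S.red x)⁻¹ := by
  have h1 : S.red x * S.red x⁻¹ = 1 := by
    rw [← red_mul h.mem h.inv_mem, mul_inv_cancel₀ h.ne_zero, red_one]
  exact eq_inv_of_mul_eq_one_right h1

theorem isU_of_red_ne_zero {x : F} (hx : x ∈ S.Ov) (h : S.red x ≠ 0) : S.IsU x :=
  (red_ne_zero_iff hx).mp h

/-- an element of `Ov` which is not a unit: its residue vanishes. -/
theorem red_eq_zero_of_not_isU {x : F} (hx : x ∈ S.Ov) (h : ¬ S.IsU x) : S.red x = 0 := by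
  by_contra h0
  exact h (isU_of_red_ne_zero hx h0)

/-- `x ∈ Ov` or `x⁻¹ ∈ Ov`. -/
theorem mem_or_inv_mem (x : F) : x ∈ S.Ov ∨ x⁻¹ ∈ S.Ov := S.Ov.mem_or_inv_mem x

/-- if `x ∉ Ov` then `x⁻¹` is in the maximal ideal. -/
theorem red_inv_eq_zero_of_not_mem {x : F} (hx : x ∉ S.Ov) : x⁻¹ ∈ S.Ov ∧ S.red x⁻¹ = 0 := by
  have h1 : x⁻¹ ∈ S.Ov := (mem_or_inv_mem x).resolve_left hx
  refine ⟨h1, ?_⟩
  rw [red_eq_zero_iff h1]
  right
  rwa [inv_inv]

/-! ### constants -/

theorem const_mem_iff (c : K) : algebraMap K F c ∈ S.Ov ↔ c ∈ S.A := S.mem_Ov_iff c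

theorem red_const {c : K} (hc : c ∈ S.A) :
    S.red (algebraMap K F c) = algebraMap k Fk (S.res ⟨c, hc⟩) := by
  rw [red_of_mem ((const_mem_iff c).mpr hc)]
  exact S.ρ_algebraMap c hc _

/-- a constant of `A` whose inverse is in `A` is a unit of `Ov`. -/
theorem isU_const {c : K} (hc0 : c ≠ 0) (hc : c ∈ S.A) (hci : c⁻¹ ∈ S.A) :
    S.IsU (algebraMap K F c) :=
  ⟨by simpa using hc0, (const_mem_iff c).mpr hc, by
    rw [← map_inv₀]; exact (const_mem_iff _).mpr hci⟩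

theorem inv_mem_A_of_isU_const {c : K} (h : S.IsU (algebraMap K F c)) : c⁻¹ ∈ S.A := by
  have := h.inv_mem
  rw [← map_inv₀] at this
  exact (const_mem_iff _).mp this

theorem mem_A_of_isU_const {c : K} (h : S.IsU (algebraMap K F c)) : c ∈ S.A :=
  (const_mem_iff _).mp h.mem

/-- the residue of a constant of `A` vanishes iff the constant is not a unit of `A`. -/
theorem res_eq_zero_iff {c : K} (hc : c ∈ S.A) : S.res ⟨c, hc⟩ = 0 ↔ c = 0 ∨ c⁻¹ ∉ S.A := by
  have h1 : S.red (algebraMap K F c) = 0 ↔ S.res ⟨c, hc⟩ = 0 := by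
    rw [red_const hc]
    exact (map_eq_zero_iff _ (algebraMap k Fk).injective)
  rw [← h1, red_eq_zero_iff ((const_mem_iff c).mpr hc), ← map_inv₀, const_mem_iff]
  simp

/-- the order of a nonzero residue constant is `0`. -/
theorem ord_red_const (Q : Place k Fk) {c : K} (hc : c ∈ S.A) :
    Q.ord (S.red (algebraMap K F c)) = 0 := by
  rw [red_const hc]
  exact Fermat.Agent.S24Res.ord_algebraMap Q _

/-- scaling: every nonzero `f` is a constant times a unit. -/
theorem exists_scale {f : F} (hf : f ≠ 0) :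
    ∃ c : K, c ≠ 0 ∧ S.IsU (f / algebraMap K F c) := by
  obtain ⟨c, hc, h1, h2⟩ := S.scale f hf
  refine ⟨c, hc, ⟨?_, ?_, ?_⟩⟩
  · exact div_ne_zero hf (by simpa using hc)
  · rw [div_eq_mul_inv]; exact h1
  · rw [div_eq_mul_inv]; exact h2

/-! ### fibre sums -/

/-- `r_* (div f) = div (red f)` for units, at the smooth points. -/
theorem push_eq {f : F} (hf : S.IsU f) (Q : Place k Fk) (hQ : S.sm Q) :
    Finsupp.mapDomain S.r (Fermat.Agent.RR.divOf S.hF f) (some (S.emb Q)) = Q.ord (S.red f) := by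
  rw [red_of_mem hf.mem]
  exact S.push f hf.mem hf.inv_mem hf.ne_zero Q hQ

theorem push_nonneg {f : F} (hf : S.IsU f) (Q : Place k Fk) (hQ : S.sm Q)
    (h : ∀ P, S.r P = some (S.emb Q) → 0 ≤ P.ord f) : 0 ≤ Q.ord (S.red f) := by
  rw [← push_eq hf Q hQ]
  exact mapDomain_nonneg _ _ _ fun P hP => by
    rw [Fermat.Agent.RR.divOf_apply]; exact h P hP

theorem push_ge {f : F} (hf : S.IsU f) (Q : Place k Fk) (hQ : S.sm Q)
    (h : ∀ P, S.r P = some (S.emb Q) → 0 ≤ P.ord f) (P1 : Place K F)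
    (h1 : S.r P1 = some (S.emb Q)) :
    P1.ord f ≤ Q.ord (S.red f) := by
  rw [← push_eq hf Q hQ]
  have := le_mapDomain S.r (Fermat.Agent.RR.divOf S.hF f) (some (S.emb Q)) (fun P hP => by
    rw [Fermat.Agent.RR.divOf_apply]; exact h P hP) P1 h1
  rwa [Fermat.Agent.RR.divOf_apply] at this

theorem push_ge_two {f : F} (hf : S.IsU f) (Q : Place k Fk) (hQ : S.sm Q)
    (h : ∀ P, S.r P = some (S.emb Q) → 0 ≤ P.ord f) (P1 P2 : Place K F) (hne : P1 ≠ P2)
    (h1 : S.r P1 = some (S.emb Q)) (h2 : S.r P2 = some (S.emb Q)) :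
    P1.ord f + P2.ord f ≤ Q.ord (S.red f) := by
  rw [← push_eq hf Q hQ]
  have := add_le_mapDomain S.r (Fermat.Agent.RR.divOf S.hF f) (some (S.emb Q)) (fun P hP => by
    rw [Fermat.Agent.RR.divOf_apply]; exact h P hP) P1 P2 hne h1 h2
  rwa [Fermat.Agent.RR.divOf_apply, Fermat.Agent.RR.divOf_apply] at this

/-- no poles in the fibre and residue of order `0`: no zeros in the fibre. -/
theorem push_eq_zero {f : F} (hf : S.IsU f) (Q : Place k Fk) (hQ : S.sm Q)
    (h : ∀ P, S.r P = some (S.emb Q) → 0 ≤ P.ord f) (h0 : Q.ord (S.red f) = 0) (P1 : Place K F)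
    (h1 : S.r P1 = some (S.emb Q)) : P1.ord f = 0 := by
  have := push_ge hf Q hQ h P1 h1
  have := h P1 h1
  omega

/-- no poles in the fibre and residue of order `1`: at most one zero in the fibre. -/
theorem push_eq_one_unique {f : F} (hf : S.IsU f) (Q : Place k Fk) (hQ : S.sm Q)
    (h : ∀ P, S.r P = some (S.emb Q) → 0 ≤ P.ord f) (h0 : Q.ord (S.red f) = 1)
    (P1 P2 : Place K F) (h1 : S.r P1 = some (S.emb Q)) (h2 : S.r P2 = some (S.emb Q))
    (hz1 : 0 < P1.ord f) (hz2 : 0 < P2.ord f) : P1 = P2 := by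
  by_contra hne
  have := push_ge_two hf Q hQ h P1 P2 hne h1 h2
  omega

theorem push_eq_one_ord {f : F} (hf : S.IsU f) (Q : Place k Fk) (hQ : S.sm Q)
    (h : ∀ P, S.r P = some (S.emb Q) → 0 ≤ P.ord f) (h0 : Q.ord (S.red f) = 1) (P1 : Place K F)
    (h1 : S.r P1 = some (S.emb Q)) (hz1 : 0 < P1.ord f) : P1.ord f = 1 := by
  have := push_ge hf Q hQ h P1 h1
  omega

/-! ### values -/

/-- the value at `P` of a function of `Ov` without poles in the residue disc of `P` lies in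
`A`. -/
theorem value_mem_A {f : F} (hf : f ∈ S.Ov) (P : Place K F) (Q : Place k Fk) (hQ : S.sm Q)
    (hPQ : S.r P = some (S.emb Q))
    (hreg : ∀ P', S.r P' = some (S.emb Q) → 0 ≤ P'.ord f) (c : K)
    (hc : f = algebraMap K F c ∨ 0 < P.ord (f - algebraMap K F c)) : c ∈ S.A := by
  by_contra hcA
  have hcO : algebraMap K F c ∉ S.Ov := fun h => hcA ((const_mem_iff c).mp h)
  rcases hc with hc | hc
  · exact hcO (hc ▸ hf)
  have hc0 : c ≠ 0 := by
    rintro rfl
    exact hcA (zero_mem _)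
  have hcF : algebraMap K F c ≠ 0 := by simpa using hc0
  obtain ⟨hci, hci0⟩ := red_inv_eq_zero_of_not_mem hcO
  -- g = c⁻¹ f - 1 = c⁻¹ (f - c)
  set g : F := (algebraMap K F c)⁻¹ * f - 1 with hg
  have hgmem : g ∈ S.Ov := sub_mem (mul_mem hci hf) (one_mem _)
  have hgred : S.red g = -1 := by
    rw [hg, red_sub (mul_mem hci hf) (one_mem _), red_mul hci hf, hci0, zero_mul, red_one, zero_sub]
  have hgU : S.IsU g := isU_of_red_ne_zero hgmem (by rw [hgred]; simp)
  have hgeq : g = (algebraMap K F c)⁻¹ * (f - algebraMap K F c) := by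
    rw [hg, mul_sub, inv_mul_cancel₀ hcF]
  have hfc : f - algebraMap K F c ≠ 0 := by
    intro h0
    rw [h0] at hc
    simp at hc
  have hordc : ∀ P' : Place K F, P'.ord ((algebraMap K F c)⁻¹) = 0 := fun P' => by
    rw [← map_inv₀]; exact Fermat.Agent.S24Res.ord_algebraMap P' _
  have hordg : ∀ P' : Place K F, P'.ord g = P'.ord (f - algebraMap K F c) := fun P' => by
    rw [hgeq, P'.ord_mul (inv_ne_zero hcF) hfc, hordc, zero_add]
  have h1 : 0 < Q.ord (S.red g) := by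
    have := push_ge hgU Q hQ (fun P' hP' => by
      rw [hordg]
      exact ord_nonneg_sub P' (hreg P' hP') (ord_const_nonneg P' c)) P hPQ
    rw [hordg] at this
    omega
  rw [hgred, ord_neg'] at h1
  simp at h1

/-- evaluation commutes with reduction. -/
theorem value_red {f : F} (hf : f ∈ S.Ov) (P : Place K F) (Q : Place k Fk) (hQ : S.sm Q)
    (hPQ : S.r P = some (S.emb Q))
    (hreg : ∀ P', S.r P' = some (S.emb Q) → 0 ≤ P'.ord f) (c : K) (hcA : c ∈ S.A)
    (hc : f = algebraMap K F c ∨ 0 < P.ord (f - algebraMap K F c)) :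
    S.red f = S.red (algebraMap K F c) ∨ 0 < Q.ord (S.red f - S.red (algebraMap K F c)) := by
  have hcO : algebraMap K F c ∈ S.Ov := (const_mem_iff c).mpr hcA
  rcases hc with hc | hc
  · left; rw [← hc]
  by_cases hU : S.IsU (f - algebraMap K F c)
  · right
    rw [← red_sub hf hcO]
    have := push_ge hU Q hQ (fun P' hP' =>
      ord_nonneg_sub P' (hreg P' hP') (ord_const_nonneg P' c)) P hPQ
    omega
  · left
    have := red_eq_zero_of_not_isU (sub_mem hf hcO) hU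
    rw [red_sub hf hcO, sub_eq_zero] at this
    exact this

/-! ### sums, constants -/

theorem kl_red_sum {ι : Type*} (I : Finset ι) (f : ι → F) (h : ∀ i ∈ I, f i ∈ S.Ov) :
    S.red (∑ i ∈ I, f i) = ∑ i ∈ I, S.red (f i) := by
  classical
  induction I using Finset.induction_on with
  | empty => simp [red_zero]
  | insert a s ha ih =>
    have h2 : ∀ i ∈ s, f i ∈ S.Ov := fun i hi => h i (Finset.mem_insert_of_mem hi)
    rw [Finset.sum_insert ha, Finset.sum_insert ha,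
      red_add (h a (Finset.mem_insert_self a s)) (sum_mem h2), ih h2]

/-- the residue of a constant of the maximal ideal of `A` vanishes. -/
theorem kl_red_const_eq_zero {c : K} (hc : c ∈ S.A) (hci : c⁻¹ ∉ S.A) :
    S.red (algebraMap K F c) = 0 := by
  rw [red_const hc, (res_eq_zero_iff hc).mpr (Or.inr hci), map_zero]

/-- the residue of a unit constant of `A` does not vanish. -/
theorem kl_red_const_ne_zero {c : K} (hc0 : c ≠ 0) (hc : c ∈ S.A) (hci : c⁻¹ ∈ S.A) :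
    S.red (algebraMap K F c) ≠ 0 :=
  (isU_const hc0 hc hci).red_ne_zero

/-- the order of `red c * f`, `c` a constant of `A`: either the product vanishes or the order is
that of `f`. -/
theorem kl_ord_red_const_mul (Q : Place k Fk) {c : K} (hc : c ∈ S.A) (f : Fk) :
    S.red (algebraMap K F c) * f = 0 ∨
      Q.ord (S.red (algebraMap K F c) * f) = Q.ord f := by
  rw [red_const hc]
  by_cases h0 : S.res ⟨c, hc⟩ = 0
  · left
    rw [h0, map_zero, zero_mul]
  · right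
    exact kl_ord_const_mul Q h0 f

theorem kl_ord_red_const_mul_ge (Q : Place k Fk) {c : K} (hc : c ∈ S.A) (f : Fk) {n : ℤ}
    (hn : n ≤ 0) (hf : n ≤ Q.ord f) : n ≤ Q.ord (S.red (algebraMap K F c) * f) := by
  rcases kl_ord_red_const_mul (S := S) Q hc f with h | h
  · rw [h]; simpa using hn
  · rw [h]; exact hf


/-- the order of `red c * f` for a unit constant `c` of `A`. -/
theorem kl_ord_red_unit_mul (Q : Place k Fk) {c : K} (hc0 : c ≠ 0) (hc : c ∈ S.A)
    (hci : c⁻¹ ∈ S.A) (f : Fk) : Q.ord (S.red (algebraMap K F c) * f) = Q.ord f := by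
  rcases kl_ord_red_const_mul (S := S) Q hc f with h | h
  · have hf : f = 0 := by
      rcases mul_eq_zero.mp h with h' | h'
      · exact absurd h' (kl_red_const_ne_zero hc0 hc hci)
      · exact h'
    rw [hf, mul_zero]
  · exact h

/-- if all orders of a unit vanish on a fibre, the residue has order `0` there. -/
theorem kl_push_zero {f : F} (hf : S.IsU f) (Q : Place k Fk) (hQ : S.sm Q)
    (h : ∀ P, S.r P = some (S.emb Q) → P.ord f = 0) : Q.ord (S.red f) = 0 := by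
  have h1 := push_nonneg hf Q hQ fun P hP => (h P hP).ge
  have h2 := push_nonneg hf.inv Q hQ fun P hP => by
    rw [P.ord_inv, h P hP]; simp
  rw [hf.red_inv, Q.ord_inv] at h2
  omega

/-! ### simple zeros -/

/-- a unit of `Ov`, regular on the fibre of `Q`, whose residue has a simple zero at `Q` and which
vanishes at `P1` in the fibre: its divisor on the fibre is `P1`. -/
theorem kl_simple_zero {f : F} (hf : S.IsU f) (Q : Place k Fk) (hQ : S.sm Q)
    (hreg : ∀ P, S.r P = some (S.emb Q) → 0 ≤ P.ord f) (h1 : Q.ord (S.red f) = 1)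
    (P1 : Place K F) (hP1 : S.r P1 = some (S.emb Q)) (hz : 0 < P1.ord f) (v : Place K F)
    (hv : S.r v = some (S.emb Q)) :
    v.ord f = Finsupp.single P1 (1 : ℤ) v := by
  have hP1o : P1.ord f = 1 := push_eq_one_ord hf Q hQ hreg h1 P1 hP1 hz
  by_cases hvP : v = P1
  · subst hvP
    rw [Finsupp.single_eq_same, hP1o]
  · rw [Finsupp.single_eq_of_ne (by exact hvP)]
    have h2 := push_ge_two hf Q hQ hreg v P1 hvP hv hP1
    have h3 := hreg v hv
    omega

/-! ### the local data -/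

/-- local data for a parameter `t` at a smooth point `Q`, `R` the zero of `t` in the disc of `Q`
and `Pi ≠ R` another point of the disc: the value `a` of `t` at `Pi`. -/
structure KLSelf (S : NSide K F k Fk X) (t : F) (Q : Place k Fk) (R Pi : Place K F) (a : K) :
    Prop where
  a_ne : a ≠ 0
  a_mem : a ∈ S.A
  a_inv : a⁻¹ ∉ S.A
  t_isU : S.IsU t
  s_isU : S.IsU (t - algebraMap K F a)
  red_s : S.red (t - algebraMap K F a) = S.red t
  ord_t_self : ∀ v, S.r v = some (S.emb Q) → v.ord t = Finsupp.single R (1 : ℤ) v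
  ord_s_self : ∀ v, S.r v = some (S.emb Q) →
    v.ord (t - algebraMap K F a) = Finsupp.single Pi (1 : ℤ) v

theorem kl_exists_self {t : F} (ht : t ∈ S.Ov) (Q : Place k Fk) (hQ : S.sm Q)
    (hord : Q.ord (S.red t) = 1) (htreg : ∀ P, S.r P = some (S.emb Q) → 0 ≤ P.ord t)
    (R : Place K F) (hR : S.r R = some (S.emb Q)) (htR : 0 < R.ord t)
    (Pi : Place K F) (hr : S.r Pi = some (S.emb Q)) (hne : Pi ≠ R) :
    ∃ a : K, KLSelf S t Q R Pi a := by
  have htU : S.IsU t := by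
    refine isU_of_red_ne_zero ht ?_
    apply kl_ne_zero_of_ord_ne_zero Q
    rw [hord]
    exact one_ne_zero
  -- the value of `t` at `Pi`
  obtain ⟨a, ha⟩ := Fermat.Agent.RR.exists_const_sub S.hF Pi (htreg Pi hr)
  have haA : a ∈ S.A := value_mem_A ht Pi Q hQ hr htreg a ha
  have hvr := value_red ht Pi Q hQ hr htreg a haA ha
  rw [red_const haA] at hvr
  have hres : S.res ⟨a, haA⟩ = 0 :=
    kl_const_eq_zero_of_ord_pos Q (by rw [hord]; exact one_pos) hvr
  have ha0 : a ≠ 0 := by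
    rintro rfl
    rw [map_zero, sub_zero] at ha
    rcases ha with ha | ha
    · exact htU.ne_zero ha
    · exact hne (push_eq_one_unique htU Q hQ htreg hord Pi R hr hR ha htR)
  have hai : a⁻¹ ∉ S.A := by
    rcases (res_eq_zero_iff haA).mp hres with h | h
    · exact absurd h ha0
    · exact h
  have hs : 0 < Pi.ord (t - algebraMap K F a) := by
    rcases ha with ha | ha
    · have := htR
      rw [ha, Fermat.Agent.S24Res.ord_algebraMap] at this
      exact absurd this (lt_irrefl _)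
    · exact ha
  have haO : algebraMap K F a ∈ S.Ov := (const_mem_iff a).mpr haA
  have hsmem : t - algebraMap K F a ∈ S.Ov := sub_mem ht haO
  have hreds : S.red (t - algebraMap K F a) = S.red t := by
    rw [red_sub ht haO, kl_red_const_eq_zero haA hai, sub_zero]
  have hsU : S.IsU (t - algebraMap K F a) :=
    isU_of_red_ne_zero hsmem (by rw [hreds]; exact htU.red_ne_zero)
  have hsreg : ∀ P, S.r P = some (S.emb Q) → 0 ≤ P.ord (t - algebraMap K F a) := fun P hP =>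
    ord_nonneg_sub P (htreg P hP) (ord_const_nonneg P a)
  refine ⟨a, ⟨ha0, haA, hai, htU, hsU, hreds, ?_, ?_⟩⟩
  · intro v hv
    exact kl_simple_zero htU Q hQ htreg hord R hR htR v hv
  · intro v hv
    exact kl_simple_zero hsU Q hQ hsreg (by rw [hreds]; exact hord) Pi hr hs v hv

/-- the orders of `t` and of `t - a`, `a` in the maximal ideal of `A`, on the disc of a smooth
point where the reduction of `t` is a unit. -/
theorem kl_ord_other {t : F} (ht : t ∈ S.Ov) (Q : Place k Fk) (hQ : S.sm Q)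
    (hred : S.red t ≠ 0) (hord : Q.ord (S.red t) = 0)
    (htreg : ∀ P, S.r P = some (S.emb Q) → 0 ≤ P.ord t) {a : K} (haA : a ∈ S.A)
    (hai : a⁻¹ ∉ S.A) (v : Place K F) (hv : S.r v = some (S.emb Q)) :
    v.ord t = 0 ∧ v.ord (t - algebraMap K F a) = 0 := by
  have htU : S.IsU t := isU_of_red_ne_zero ht hred
  have haO : algebraMap K F a ∈ S.Ov := (const_mem_iff a).mpr haA
  have hsmem : t - algebraMap K F a ∈ S.Ov := sub_mem ht haO
  have hreds : S.red (t - algebraMap K F a) = S.red t := by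
    rw [red_sub ht haO, kl_red_const_eq_zero haA hai, sub_zero]
  have hsU : S.IsU (t - algebraMap K F a) :=
    isU_of_red_ne_zero hsmem (by rw [hreds]; exact htU.red_ne_zero)
  have hsreg : ∀ P, S.r P = some (S.emb Q) → 0 ≤ P.ord (t - algebraMap K F a) := fun P hP =>
    ord_nonneg_sub P (htreg P hP) (ord_const_nonneg P a)
  exact ⟨push_eq_zero htU Q hQ htreg hord v hv,
    push_eq_zero hsU Q hQ hsreg (by rw [hreds]; exact hord) v hv⟩

end NK

end Fermat.Agent.BadRed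
end
end MergeWrap_Lib_BadRed_Nodal_Side

section MergeWrap_Lib_BadRed_Nodal_KeyTwo -- from Lib/BadRed/Nodal/KeyTwo.lean

set_option autoImplicit false

/-!
# Cluster T, N2a: the two sides of a nodal setup, two-sided lemmas

* `NK.side₁`, `NK.side₂` : the two `NSide`s of a `NodalSetup`;
* `NK.exists_scale₂` : max-norm scaling (`x / c ∈ O₁ ∩ O₂`, a unit of one of them);
* `NK.red_const_of_reg` : a function of `O₁ ∩ O₂`, regular off the discs of the `Rb j`, whose
  reductions have at most simple poles at the `Rb j`, has CONSTANT reductions `(c, c)`;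
* `NK.kl_final₂` : … and it cannot vanish at `P0` unless both reductions vanish;
* `NK.kl_normalise₂`, `NK.kl_exists_self₂`, `NK.kl_ord_other₂` : normalisation and local data.
-/

noncomputable section

open AlgebraicCurve Fermat.Agent.RR Fermat.Agent.Deuring

namespace Fermat.Agent.BadRed

namespace NK

open Fermat.Agent.S18Key (ord_neg' ord_nonneg_add ord_nonneg_sub ord_nonneg_mul ord_const_nonneg
  ord_one_nonneg ord_add_ge_of_ge ord_add_eq_of_lt mapDomain_apply_eq_sum sum_le_mapDomain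
  mapDomain_nonneg le_mapDomain add_le_mapDomain kl_ord_const_mul kl_ord_mul_const
  kl_ord_div_const kl_ord_sum_ge kl_ord_prod kl_ord_pow kl_ord_sub_ge_of_ge
  kl_ne_zero_of_ord_ne_zero kl_const_eq_zero_of_ord_pos)

variable {K F k Fk₁ Fk₂ : Type*} [Field K] [Field F] [Algebra K F]
  [Field k] [Field Fk₁] [Algebra k Fk₁] [Field Fk₂] [Algebra k Fk₂] {ι : Type*}

/-- the first side of a nodal setup. -/
def side₁ (N : NodalSetup K F k Fk₁ Fk₂ ι) : NSide K F k Fk₁ (Place k Fk₁ ⊕ Place k Fk₂) where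
  A := N.S₁.A
  Ov := N.S₁.Ov
  res := N.S₁.res
  ρ := N.S₁.ρ
  r := N.r
  emb := Sum.inl
  sm := fun Q => ∀ i, Q ≠ N.s₁ i
  hF := N.S₁.hF
  mem_Ov_iff := N.S₁.mem_Ov_iff
  ρ_algebraMap := N.S₁.ρ_algebraMap
  ρ_eq_zero_iff := N.S₁.ρ_eq_zero_iff
  scale := N.S₁.scale
  push := fun f hf hfi hf0 Q hQ => by
    have := N.push₁ f hf hfi hf0 Q hQ
    rwa [ValSetup.red, dif_pos hf] at this

/-- the second side of a nodal setup. -/
def side₂ (N : NodalSetup K F k Fk₁ Fk₂ ι) : NSide K F k Fk₂ (Place k Fk₁ ⊕ Place k Fk₂) where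
  A := N.S₂.A
  Ov := N.S₂.Ov
  res := N.S₂.res
  ρ := N.S₂.ρ
  r := N.r
  emb := Sum.inr
  sm := fun Q => ∀ i, Q ≠ N.s₂ i
  hF := N.S₂.hF
  mem_Ov_iff := N.S₂.mem_Ov_iff
  ρ_algebraMap := N.S₂.ρ_algebraMap
  ρ_eq_zero_iff := N.S₂.ρ_eq_zero_iff
  scale := N.S₂.scale
  push := fun f hf hfi hf0 Q hQ => by
    have := N.push₂ f hf hfi hf0 Q hQ
    rwa [ValSetup.red, dif_pos hf] at this

variable (N : NodalSetup K F k Fk₁ Fk₂ ι)

theorem side₁_red (f : F) : (side₁ N).red f = N.S₁.red f := rfl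

theorem side₂_red (f : F) : (side₂ N).red f = N.S₂.red f := rfl

theorem mem_A₂_iff (c : K) : c ∈ N.S₂.A ↔ c ∈ N.S₁.A := by rw [N.A_eq]

/-- units of both valuation rings. -/
structure IsU₂ (x : F) : Prop where
  u₁ : (side₁ N).IsU x
  u₂ : (side₂ N).IsU x

/-- the smooth points of the special fibre. -/
def IsSm (X : Place k Fk₁ ⊕ Place k Fk₂) : Prop :=
  Sum.elim (fun Q => ∀ i, Q ≠ N.s₁ i) (fun Q => ∀ i, Q ≠ N.s₂ i) X

theorem isSm_of_r {P : Place K F} {X : Place k Fk₁ ⊕ Place k Fk₂} (h : N.r P = some X) :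
    IsSm N X := by
  cases X with
  | inl Q => intro i hi; exact N.r_ne_node₁ P i (by rw [h, hi])
  | inr Q => intro i hi; exact N.r_ne_node₂ P i (by rw [h, hi])

/-- the order at `X` of the reduction of `f` (on the component of `X`). -/
def ordRed (X : Place k Fk₁ ⊕ Place k Fk₂) (f : F) : ℤ :=
  pairOrd X (N.S₁.red f) (N.S₂.red f)

/-- the reductions of a function without poles on the disc of a smooth point `X` is regular at
`X`. -/
theorem ordRed_nonneg {f : F} (X : Place k Fk₁ ⊕ Place k Fk₂) (hX : IsSm N X)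
    (h : ∀ P, N.r P = some X → 0 ≤ P.ord f) : 0 ≤ ordRed N X f := by
  cases X with
  | inl Q =>
    show 0 ≤ Q.ord (N.S₁.red f)
    by_cases h0 : N.S₁.red f = 0
    · rw [h0, Place.ord_zero]
    · have hU : (side₁ N).IsU f :=
        isU_of_red_ne_zero (S := side₁ N) (ValSetup.mem_of_red_ne_zero _ h0) h0
      exact push_nonneg (S := side₁ N) hU Q hX h
  | inr Q =>
    show 0 ≤ Q.ord (N.S₂.red f)
    by_cases h0 : N.S₂.red f = 0
    · rw [h0, Place.ord_zero]
    · have hU : (side₂ N).IsU f :=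
        isU_of_red_ne_zero (S := side₂ N) (ValSetup.mem_of_red_ne_zero _ h0) h0
      exact push_nonneg (S := side₂ N) hU Q hX h

/-- **max-norm scaling**. -/
theorem exists_scale₂ {x : F} (hx : x ≠ 0) : ∃ c : K, c ≠ 0 ∧
    x / algebraMap K F c ∈ N.S₁.Ov ∧ x / algebraMap K F c ∈ N.S₂.Ov ∧
      (N.S₁.red (x / algebraMap K F c) ≠ 0 ∨ N.S₂.red (x / algebraMap K F c) ≠ 0) := by
  obtain ⟨c₁, hc₁, hU₁⟩ := exists_scale (S := side₁ N) hx
  obtain ⟨c₂, hc₂, hU₂⟩ := exists_scale (S := side₂ N) hx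
  have hc₁F : algebraMap K F c₁ ≠ 0 := by simpa using hc₁
  have hc₂F : algebraMap K F c₂ ≠ 0 := by simpa using hc₂
  rcases N.S₁.A.mem_or_inv_mem (c₁ / c₂) with h | h
  · refine ⟨c₂, hc₂, ?_, hU₂.mem, Or.inr hU₂.red_ne_zero⟩
    have e : x / algebraMap K F c₂ = x / algebraMap K F c₁ * algebraMap K F (c₁ / c₂) := by
      rw [map_div₀]; field_simp
    rw [e]
    exact mul_mem hU₁.mem ((N.S₁.mem_Ov_iff _).mpr h)
  · rw [inv_div] at h
    refine ⟨c₁, hc₁, hU₁.mem, ?_, Or.inl hU₁.red_ne_zero⟩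
    have e : x / algebraMap K F c₁ = x / algebraMap K F c₂ * algebraMap K F (c₂ / c₁) := by
      rw [map_div₀]; field_simp
    rw [e]
    exact mul_mem hU₂.mem ((N.S₂.mem_Ov_iff _).mpr ((mem_A₂_iff N _).mpr h))

variable {N}

/-- a function of `O₁ ∩ O₂`, regular off the discs of the `Rb j`, `j ∈ I`, whose reductions have
at most simple poles at the `Rb j`: the reductions are the same constant. -/
theorem red_const_of_reg {g : ℕ} (NS : NodalNS N g) (I : Finset (Fin g)) {W : F}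
    (h₁ : W ∈ N.S₁.Ov) (h₂ : W ∈ N.S₂.Ov)
    (hreg : ∀ v, (∀ j ∈ I, N.r v ≠ some (NS.Rb j)) → 0 ≤ v.ord W)
    (hpole : ∀ j ∈ I, -1 ≤ ordRed N (NS.Rb j) W) :
    ∃ c : k, N.S₁.red W = algebraMap k Fk₁ c ∧ N.S₂.red W = algebraMap k Fk₂ c := by
  have hnode : N.IsNodalFn (N.S₁.red W) (N.S₂.red W) :=
    N.node W h₁ h₂ (fun P hP => hreg P (fun j _ => by rw [hP]; simp))
  have hsm : ∀ X, IsSm N X → (∀ j ∈ I, NS.Rb j ≠ X) → 0 ≤ ordRed N X W := fun X hX hne =>
    ordRed_nonneg N X hX (fun P hP => hreg P (fun j hj h' => hne j hj (by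
      rw [hP] at h'; exact (Option.some.inj h').symm)))
  refine NS.nonspecial _ _ hnode ?_ ?_ ?_
  · intro Q hQ
    by_cases hs : ∀ i, Q ≠ N.s₁ i
    · exact hsm (Sum.inl Q) hs (fun j _ => hQ j)
    · push Not at hs
      obtain ⟨i, rfl⟩ := hs
      exact (hnode i).1
  · intro Q hQ
    by_cases hs : ∀ i, Q ≠ N.s₂ i
    · exact hsm (Sum.inr Q) hs (fun j _ => hQ j)
    · push Not at hs
      obtain ⟨i, rfl⟩ := hs
      exact (hnode i).2.1
  · intro i
    by_cases hi : i ∈ I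
    · exact hpole i hi
    · have := hsm (NS.Rb i) (isSm_of_r N (NS.r_R i)) (fun j hj h' => hi (NS.Rb_inj h' ▸ hj))
      unfold ordRed at this
      omega

/-- final contradiction: a function of `O₁ ∩ O₂` with a nonzero reduction, regular off the discs
`I`, whose reductions have at most simple poles at the `Rb j`, `j ∈ I`, cannot vanish at `P0`. -/
theorem kl_final₂ {g : ℕ} (NS : NodalNS N g) (I : Finset (Fin g)) {W : F}
    (h₁ : W ∈ N.S₁.Ov) (h₂ : W ∈ N.S₂.Ov) (hne : N.S₁.red W ≠ 0 ∨ N.S₂.red W ≠ 0)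
    (hreg : ∀ v, (∀ j ∈ I, N.r v ≠ some (NS.Rb j)) → 0 ≤ v.ord W)
    (hpole : ∀ j ∈ I, -1 ≤ ordRed N (NS.Rb j) W)
    (hz : 0 < NS.P0.ord W) : False := by
  obtain ⟨c, hc₁, hc₂⟩ := red_const_of_reg NS I h₁ h₂ hreg hpole
  obtain ⟨X, hX⟩ := NS.P0_ord
  have hXsm := isSm_of_r N hX
  have hXne : ∀ j, NS.Rb j ≠ X := fun j h => NS.r_P0 j (by rw [hX, h])
  have hregX : ∀ P, N.r P = some X → 0 ≤ P.ord W := fun P hP =>
    hreg P (fun j _ h' => hXne j (by rw [hP] at h'; exact (Option.some.inj h').symm))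
  have hc0 : c = 0 := by
    by_contra hc
    cases X with
    | inl Q =>
      have hU : (side₁ N).IsU W := isU_of_red_ne_zero (S := side₁ N) h₁ (by
        rw [side₁_red, hc₁]; simpa using hc)
      have := push_ge (S := side₁ N) hU Q hXsm hregX NS.P0 hX
      rw [side₁_red, hc₁, Fermat.Agent.S24Res.ord_algebraMap] at this
      omega
    | inr Q =>
      have hU : (side₂ N).IsU W := isU_of_red_ne_zero (S := side₂ N) h₂ (by
        rw [side₂_red, hc₂]; simpa using hc)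
      have := push_ge (S := side₂ N) hU Q hXsm hregX NS.P0 hX
      rw [side₂_red, hc₂, Fermat.Agent.S24Res.ord_algebraMap] at this
      omega
  subst hc0
  rcases hne with h | h
  · exact h (by rw [hc₁, map_zero])
  · exact h (by rw [hc₂, map_zero])

/-! ### normalisation -/

/-- normalisation of the value at `P0`, one side. -/
theorem kl_normalise₁ {Fk X : Type*} [Field Fk] [Algebra k Fk] (S : NSide K F k Fk X)
    (P0 : Place K F) (Q : Place k Fk) (hQ : S.sm Q)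
    (hP0 : S.r P0 = some (S.emb Q)) {u₁ : F} (hU : S.IsU u₁)
    (h0 : ∀ P, S.r P = some (S.emb Q) → P.ord u₁ = 0) :
    ∃ c₀ : K, c₀ ≠ 0 ∧ c₀ ∈ S.A ∧ c₀⁻¹ ∈ S.A ∧
      (u₁ / algebraMap K F c₀ = 1 ∨ 0 < P0.ord (u₁ / algebraMap K F c₀ - 1)) := by
  have hreg : ∀ P, S.r P = some (S.emb Q) → 0 ≤ P.ord u₁ := fun P hP => (h0 P hP).ge
  obtain ⟨c₀, hc₀⟩ := Fermat.Agent.RR.exists_const_sub S.hF P0 (hreg P0 hP0)
  have hc₀A : c₀ ∈ S.A := value_mem_A hU.mem P0 Q hQ hP0 hreg c₀ hc₀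
  have hc₀0 : c₀ ≠ 0 := by
    rintro rfl
    rw [map_zero, sub_zero] at hc₀
    rcases hc₀ with h | h
    · exact hU.ne_zero h
    · rw [h0 P0 hP0] at h; exact lt_irrefl _ h
  have hvr := value_red hU.mem P0 Q hQ hP0 hreg c₀ hc₀A hc₀
  have hpz : Q.ord (S.red u₁) = 0 := kl_push_zero hU Q hQ h0
  have hc₀i : c₀⁻¹ ∈ S.A := by
    by_contra hci
    rw [kl_red_const_eq_zero hc₀A hci, sub_zero] at hvr
    rcases hvr with h | h
    · exact hU.red_ne_zero h
    · rw [hpz] at h; exact lt_irrefl _ h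
  have hcU : S.IsU (algebraMap K F c₀) := isU_const hc₀0 hc₀A hc₀i
  refine ⟨c₀, hc₀0, hc₀A, hc₀i, ?_⟩
  rcases hc₀ with h | h
  · left; rw [h]; exact div_self hcU.ne_zero
  · right
    have e2 : u₁ / algebraMap K F c₀ - 1 = (u₁ - algebraMap K F c₀) / algebraMap K F c₀ := by
      rw [sub_div, div_self hcU.ne_zero]
    rw [e2, kl_ord_div_const P0 hc₀0]; exact h

/-- normalisation: a function whose divisor is ordinary with trivial reduction is, up to a
constant, a unit of both valuation rings taking the value `1` at `P0`. -/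
theorem kl_normalise₂ {g : ℕ} (NS : NodalNS N g) (I : Finset (Fin g)) {u₀ : F} (hu₀ : u₀ ≠ 0)
    (hoff : ∀ v, (∀ j ∈ I, N.r v ≠ some (NS.Rb j)) → v.ord u₀ = 0)
    (hdisc : ∀ j ∈ I, Finsupp.mapDomain N.r (divOf N.S₁.hF u₀) (some (NS.Rb j)) = 0) :
    ∃ c : K, c ≠ 0 ∧ IsU₂ N (u₀ / algebraMap K F c) ∧
      (u₀ / algebraMap K F c = 1 ∨ 0 < NS.P0.ord (u₀ / algebraMap K F c - 1)) := by
  obtain ⟨c₁, hc₁, hm₁, hm₂, hne⟩ := exists_scale₂ N hu₀
  have hord : ∀ P : Place K F, P.ord (u₀ / algebraMap K F c₁) = P.ord u₀ := fun P =>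
    kl_ord_div_const P hc₁ u₀
  have hdiv : divOf N.S₁.hF (u₀ / algebraMap K F c₁) = divOf N.S₁.hF u₀ := by
    ext P; rw [divOf_apply, divOf_apply, hord]
  -- the reductions are constant
  have hpole : ∀ j ∈ I, -1 ≤ ordRed N (NS.Rb j) (u₀ / algebraMap K F c₁) := by
    intro j hj
    have hsm := isSm_of_r N (NS.r_R j)
    have hd := hdisc j hj
    rw [← hdiv] at hd
    have key : ordRed N (NS.Rb j) (u₀ / algebraMap K F c₁) = 0 := by
      revert hd hsm
      generalize NS.Rb j = X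
      intro hsm hd
      cases X with
      | inl Q =>
        show Q.ord (N.S₁.red _) = 0
        by_cases h0 : N.S₁.red (u₀ / algebraMap K F c₁) = 0
        · rw [h0, Place.ord_zero]
        · have hU : (side₁ N).IsU (u₀ / algebraMap K F c₁) :=
            isU_of_red_ne_zero (S := side₁ N) hm₁ h0
          exact (push_eq (S := side₁ N) hU Q hsm).symm.trans hd
      | inr Q =>
        show Q.ord (N.S₂.red _) = 0
        by_cases h0 : N.S₂.red (u₀ / algebraMap K F c₁) = 0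
        · rw [h0, Place.ord_zero]
        · have hU : (side₂ N).IsU (u₀ / algebraMap K F c₁) :=
            isU_of_red_ne_zero (S := side₂ N) hm₂ h0
          exact (push_eq (S := side₂ N) hU Q hsm).symm.trans hd
    rw [key]; norm_num
  obtain ⟨cb, hcb₁, hcb₂⟩ := red_const_of_reg NS I hm₁ hm₂
    (fun v hv => by rw [hord, hoff v hv]) hpole
  have hcb0 : cb ≠ 0 := by
    rintro rfl
    rcases hne with h | h
    · exact h (by rw [hcb₁, map_zero])
    · exact h (by rw [hcb₂, map_zero])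
  have hU₁ : (side₁ N).IsU (u₀ / algebraMap K F c₁) :=
    isU_of_red_ne_zero (S := side₁ N) hm₁ (by rw [side₁_red, hcb₁]; simpa using hcb0)
  have hU₂ : (side₂ N).IsU (u₀ / algebraMap K F c₁) :=
    isU_of_red_ne_zero (S := side₂ N) hm₂ (by rw [side₂_red, hcb₂]; simpa using hcb0)
  -- the value at `P0`
  obtain ⟨X, hX⟩ := NS.P0_ord
  have hXsm := isSm_of_r N hX
  have hXne : ∀ j, NS.Rb j ≠ X := fun j h => NS.r_P0 j (by rw [hX, h])
  have h0X : ∀ P, N.r P = some X → P.ord (u₀ / algebraMap K F c₁) = 0 := fun P hP => by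
    rw [hord]
    exact hoff P (fun j _ h' => hXne j (by rw [hP] at h'; exact (Option.some.inj h').symm))
  have hc₀ : ∃ c₀ : K, c₀ ≠ 0 ∧ c₀ ∈ N.S₁.A ∧ c₀⁻¹ ∈ N.S₁.A ∧
      (u₀ / algebraMap K F c₁ / algebraMap K F c₀ = 1 ∨
        0 < NS.P0.ord (u₀ / algebraMap K F c₁ / algebraMap K F c₀ - 1)) := by
    cases X with
    | inl Q => exact kl_normalise₁ (side₁ N) NS.P0 Q hXsm hX hU₁ h0X
    | inr Q =>
      obtain ⟨c₀, h1, h2, h3, h4⟩ := kl_normalise₁ (side₂ N) NS.P0 Q hXsm hX hU₂ h0X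
      exact ⟨c₀, h1, (mem_A₂_iff N _).mp h2, (mem_A₂_iff N _).mp h3, h4⟩
  obtain ⟨c₀, hc₀0, hc₀A, hc₀i, hval⟩ := hc₀
  have e : u₀ / algebraMap K F (c₁ * c₀) = u₀ / algebraMap K F c₁ / algebraMap K F c₀ := by
    rw [map_mul, div_div]
  refine ⟨c₁ * c₀, mul_ne_zero hc₁ hc₀0, ?_, ?_⟩
  · rw [e]
    exact ⟨hU₁.div (isU_const (S := side₁ N) hc₀0 hc₀A hc₀i),
      hU₂.div (isU_const (S := side₂ N) hc₀0 ((mem_A₂_iff N _).mpr hc₀A)
        ((mem_A₂_iff N _).mpr hc₀i))⟩
  · rw [e]; exact hval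

/-! ### local data -/

theorem kl_t_isU₂ {g : ℕ} (NS : NodalNS N g) (i : Fin g) : IsU₂ N (NS.t i) :=
  ⟨isU_of_red_ne_zero (S := side₁ N) (NS.t_mem₁ i) (NS.t_red₁ i),
    isU_of_red_ne_zero (S := side₂ N) (NS.t_mem₂ i) (NS.t_red₂ i)⟩

/-- `t i - a` is a unit of both valuation rings, for `a` in the maximal ideal of `A`. -/
theorem kl_s_isU₂ {g : ℕ} (NS : NodalNS N g) (i : Fin g) {a : K} (haA : a ∈ N.S₁.A)
    (hai : a⁻¹ ∉ N.S₁.A) :
    IsU₂ N (NS.t i - algebraMap K F a) ∧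
      (side₁ N).red (NS.t i - algebraMap K F a) = (side₁ N).red (NS.t i) ∧
      (side₂ N).red (NS.t i - algebraMap K F a) = (side₂ N).red (NS.t i) := by
  have haA₂ : a ∈ N.S₂.A := (mem_A₂_iff N _).mpr haA
  have hai₂ : a⁻¹ ∉ N.S₂.A := fun h => hai ((mem_A₂_iff N _).mp h)
  have hO₁ : algebraMap K F a ∈ N.S₁.Ov := (N.S₁.mem_Ov_iff a).mpr haA
  have hO₂ : algebraMap K F a ∈ N.S₂.Ov := (N.S₂.mem_Ov_iff a).mpr haA₂
  have hr₁ : (side₁ N).red (NS.t i - algebraMap K F a) = (side₁ N).red (NS.t i) := by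
    rw [red_sub (S := side₁ N) (NS.t_mem₁ i) hO₁, kl_red_const_eq_zero (S := side₁ N) haA hai,
      sub_zero]
  have hr₂ : (side₂ N).red (NS.t i - algebraMap K F a) = (side₂ N).red (NS.t i) := by
    rw [red_sub (S := side₂ N) (NS.t_mem₂ i) hO₂, kl_red_const_eq_zero (S := side₂ N) haA₂ hai₂,
      sub_zero]
  exact ⟨⟨isU_of_red_ne_zero (S := side₁ N) (sub_mem (NS.t_mem₁ i) hO₁)
      (by rw [hr₁]; exact NS.t_red₁ i),
    isU_of_red_ne_zero (S := side₂ N) (sub_mem (NS.t_mem₂ i) hO₂)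
      (by rw [hr₂]; exact NS.t_red₂ i)⟩, hr₁, hr₂⟩

/-- orders of `t i`, `t i - a` on the disc of `Rb j`, `j ≠ i`. -/
theorem kl_ord_other₂ {g : ℕ} (NS : NodalNS N g) (i j : Fin g) (hij : i ≠ j) {a : K}
    (haA : a ∈ N.S₁.A) (hai : a⁻¹ ∉ N.S₁.A) (v : Place K F) (hv : N.r v = some (NS.Rb j)) :
    v.ord (NS.t i) = 0 ∧ v.ord (NS.t i - algebraMap K F a) = 0 := by
  have hsm := isSm_of_r N hv
  have hord := NS.ord_t_other i j hij
  have hreg := NS.t_reg i j
  revert hv hsm hord hreg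
  generalize NS.Rb j = X
  intro hv hsm hord hreg
  cases X with
  | inl Q =>
    exact kl_ord_other (S := side₁ N) (NS.t_mem₁ i) Q hsm (NS.t_red₁ i) hord hreg haA hai v hv
  | inr Q =>
    exact kl_ord_other (S := side₂ N) (NS.t_mem₂ i) Q hsm (NS.t_red₂ i) hord hreg
      ((mem_A₂_iff N _).mpr haA) (fun h => hai ((mem_A₂_iff N _).mp h)) v hv

/-- local data at an index `i`, for a point `Pi ≠ R i` of the residue disc of `Rb i`. -/
theorem kl_exists_self₂ {g : ℕ} (NS : NodalNS N g) (i : Fin g) (Pi : Place K F)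
    (hr : N.r Pi = some (NS.Rb i)) (hne : Pi ≠ NS.R i) :
    ∃ a : K, a ≠ 0 ∧ a ∈ N.S₁.A ∧ a⁻¹ ∉ N.S₁.A ∧
      (∀ v, N.r v = some (NS.Rb i) → v.ord (NS.t i) = Finsupp.single (NS.R i) (1 : ℤ) v) ∧
      (∀ v, N.r v = some (NS.Rb i) →
        v.ord (NS.t i - algebraMap K F a) = Finsupp.single Pi (1 : ℤ) v) := by
  have hsm := isSm_of_r N hr
  have hord := NS.ord_t_self i
  have hreg := NS.t_reg i i
  have hR := NS.r_R i
  revert hr hsm hord hreg hR
  generalize NS.Rb i = X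
  intro hr hsm hord hreg hR
  cases X with
  | inl Q =>
    obtain ⟨a, ha⟩ := kl_exists_self (S := side₁ N) (NS.t_mem₁ i) Q hsm hord hreg (NS.R i) hR
      (NS.t_R i) Pi hr hne
    exact ⟨a, ha.a_ne, ha.a_mem, ha.a_inv, ha.ord_t_self, ha.ord_s_self⟩
  | inr Q =>
    obtain ⟨a, ha⟩ := kl_exists_self (S := side₂ N) (NS.t_mem₂ i) Q hsm hord hreg (NS.R i) hR
      (NS.t_R i) Pi hr hne
    exact ⟨a, ha.a_ne, (mem_A₂_iff N _).mp ha.a_mem,
      fun h => ha.a_inv ((mem_A₂_iff N _).mpr h), ha.ord_t_self, ha.ord_s_self⟩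

end NK

end Fermat.Agent.BadRed
end
end MergeWrap_Lib_BadRed_Nodal_KeyTwo

section MergeWrap_Lib_BadRed_Nodal_KeyCore -- from Lib/BadRed/Nodal/KeyCore.lean

set_option autoImplicit false

/-!
# Cluster T, N2a: the core of the nodal KEY LEMMA

One-sided computations (`klY`, `kl_T_red`, …) and the two-sided core contradiction `kl_core₂`.
Port of `Fermat.Agent.S18.KeyLemma` (helper61) to pairs of reductions.
-/

noncomputable section

open AlgebraicCurve Fermat.Agent.RR Fermat.Agent.Deuring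

namespace Fermat.Agent.BadRed

namespace NK

open Fermat.Agent.S18Key (ord_neg' ord_nonneg_add ord_nonneg_sub ord_nonneg_mul ord_const_nonneg
  ord_one_nonneg ord_add_ge_of_ge ord_add_eq_of_lt mapDomain_apply_eq_sum sum_le_mapDomain
  mapDomain_nonneg le_mapDomain add_le_mapDomain kl_ord_const_mul kl_ord_mul_const
  kl_ord_div_const kl_ord_sum_ge kl_ord_prod kl_ord_pow kl_ord_sub_ge_of_ge
  kl_ne_zero_of_ord_ne_zero kl_const_eq_zero_of_ord_pos)

variable {K F k : Type*} [Field K] [Field F] [Algebra K F] [Field k]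

/-! ### first order expansions over a subring -/

/-- `z = 1 + a c + a² y` with `y ∈ R`. -/
def KLExpR (R : Subring F) (a z c : F) : Prop :=
  ∃ y ∈ R, z = 1 + a * c + a ^ 2 * y

theorem KLExpR.base (R : Subring F) (a c : F) : KLExpR R a (1 + a * c) c :=
  ⟨0, zero_mem _, by ring⟩

theorem KLExpR.one (R : Subring F) (a : F) : KLExpR R a 1 0 :=
  ⟨0, zero_mem _, by ring⟩

theorem KLExpR.mul {R : Subring F} {a z c z' c' : F} (ha : a ∈ R) (hc : c ∈ R) (hc' : c' ∈ R)
    (h : KLExpR R a z c) (h' : KLExpR R a z' c') : KLExpR R a (z * z') (c + c') := by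
  obtain ⟨y, hy, rfl⟩ := h
  obtain ⟨y', hy', rfl⟩ := h'
  refine ⟨y + y' + c * c' + a * (c * y' + c' * y) + a ^ 2 * (y * y'), ?_, by ring⟩
  exact add_mem (add_mem (add_mem (add_mem hy hy') (mul_mem hc hc'))
    (mul_mem ha (add_mem (mul_mem hc hy') (mul_mem hc' hy)))) (mul_mem (pow_mem ha 2) (mul_mem hy hy'))

theorem KLExpR.pow {R : Subring F} {a z c : F} (ha : a ∈ R) (hc : c ∈ R) (h : KLExpR R a z c)
    (n : ℕ) : KLExpR R a (z ^ n) ((n : F) * c) := by
  induction n with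
  | zero => simpa using KLExpR.one R a
  | succ n ih =>
    have h1 : ((n : F) * c) ∈ R := mul_mem (natCast_mem _ n) hc
    have := KLExpR.mul ha h1 hc ih h
    rw [pow_succ]
    have e : ((n + 1 : ℕ) : F) * c = (n : F) * c + c := by push_cast; ring
    rw [e]
    exact this

theorem KLExpR.prod {R : Subring F} {ι' : Type*} (I : Finset ι') {a : F} (z c : ι' → F)
    (ha : a ∈ R) (hc : ∀ i ∈ I, c i ∈ R) (h : ∀ i ∈ I, KLExpR R a (z i) (c i)) :
    KLExpR R a (∏ i ∈ I, z i) (∑ i ∈ I, c i) := by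
  classical
  induction I using Finset.induction_on with
  | empty => simpa using KLExpR.one R a
  | insert b s hb ih =>
    have hc2 : ∀ i ∈ s, c i ∈ R := fun i hi => hc i (Finset.mem_insert_of_mem hi)
    have h2 : ∀ i ∈ s, KLExpR R a (z i) (c i) := fun i hi => h i (Finset.mem_insert_of_mem hi)
    rw [Finset.prod_insert hb, Finset.sum_insert hb]
    exact KLExpR.mul ha (hc b (Finset.mem_insert_self b s)) (sum_mem hc2)
      (h b (Finset.mem_insert_self b s)) (ih hc2 h2)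

/-! ### one-sided computations -/

section OneSide

variable {Fk X : Type*} [Field Fk] [Algebra k Fk] {S : NSide K F k Fk X} {ι' : Type*}

/-- the function `Y` of the main argument. -/
def klY (I : Finset ι') (t : ι' → F) (aI : ι' → K) (astar : K) (m : ℕ) (y : F) : F :=
  (m : F) * ∑ i ∈ I, algebraMap K F (aI i / astar) * (t i - algebraMap K F (aI i))⁻¹ +
    algebraMap K F astar * y

variable {I : Finset ι'} {t : ι' → F} {aI : ι' → K} {astar : K} {m : ℕ} {y : F}

theorem klσ_mem (hsU : ∀ i ∈ I, S.IsU (t i - algebraMap K F (aI i)))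
    (hcA : ∀ i ∈ I, aI i / astar ∈ S.A) :
    ∀ i ∈ I, algebraMap K F (aI i / astar) * (t i - algebraMap K F (aI i))⁻¹ ∈ S.Ov :=
  fun i hi => mul_mem ((const_mem_iff _).mpr (hcA i hi)) (hsU i hi).inv_mem

theorem klY_mem (hsU : ∀ i ∈ I, S.IsU (t i - algebraMap K F (aI i)))
    (hcA : ∀ i ∈ I, aI i / astar ∈ S.A) (haA : astar ∈ S.A) (hy : y ∈ S.Ov) :
    klY I t aI astar m y ∈ S.Ov :=
  add_mem (mul_mem (natCast_mem _ m) (sum_mem (klσ_mem hsU hcA)))
    (mul_mem ((const_mem_iff _).mpr haA) hy)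

theorem red_klY (hsU : ∀ i ∈ I, S.IsU (t i - algebraMap K F (aI i)))
    (hreds : ∀ i ∈ I, S.red (t i - algebraMap K F (aI i)) = S.red (t i))
    (hcA : ∀ i ∈ I, aI i / astar ∈ S.A) (haA : astar ∈ S.A) (hai : astar⁻¹ ∉ S.A)
    (hy : y ∈ S.Ov) :
    S.red (klY I t aI astar m y) = S.red (algebraMap K F (m : K)) *
      ∑ i ∈ I, S.red (algebraMap K F (aI i / astar)) * (S.red (t i))⁻¹ := by
  have haO : algebraMap K F astar ∈ S.Ov := (const_mem_iff _).mpr haA
  have hmO : (m : F) ∈ S.Ov := natCast_mem _ m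
  have hmF : (m : F) = algebraMap K F (m : K) := (map_natCast (algebraMap K F) m).symm
  have hσmem := klσ_mem hsU hcA
  have hredσ : ∀ i ∈ I,
      S.red (algebraMap K F (aI i / astar) * (t i - algebraMap K F (aI i))⁻¹) =
        S.red (algebraMap K F (aI i / astar)) * (S.red (t i))⁻¹ := by
    intro i hi
    rw [red_mul ((const_mem_iff _).mpr (hcA i hi)) (hsU i hi).inv_mem, (hsU i hi).red_inv,
      hreds i hi]
  unfold klY
  rw [red_add (mul_mem hmO (sum_mem hσmem)) (mul_mem haO hy), red_mul hmO (sum_mem hσmem),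
    red_mul haO hy, kl_red_const_eq_zero haA hai, zero_mul, add_zero, kl_red_sum I _ hσmem, hmF]
  congr 1
  exact Finset.sum_congr rfl hredσ

theorem ord_red_klY_ge (Q : Place k Fk)
    (hsU : ∀ i ∈ I, S.IsU (t i - algebraMap K F (aI i)))
    (hreds : ∀ i ∈ I, S.red (t i - algebraMap K F (aI i)) = S.red (t i))
    (hcA : ∀ i ∈ I, aI i / astar ∈ S.A) (haA : astar ∈ S.A) (hai : astar⁻¹ ∉ S.A)
    (hy : y ∈ S.Ov) (hord : ∀ i ∈ I, Q.ord (S.red (t i)) ≤ 1) :
    -1 ≤ Q.ord (S.red (klY I t aI astar m y)) := by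
  rw [red_klY hsU hreds hcA haA hai hy]
  refine kl_ord_red_const_mul_ge Q (natCast_mem _ m) _ (by norm_num) ?_
  refine kl_ord_sum_ge Q I _ (by norm_num) fun i hi => ?_
  refine kl_ord_red_const_mul_ge Q (hcA i hi) _ (by norm_num) ?_
  rw [Q.ord_inv]
  have := hord i hi
  omega

theorem ord_red_klY_eq (Q : Place k Fk)
    (hsU : ∀ i ∈ I, S.IsU (t i - algebraMap K F (aI i)))
    (hreds : ∀ i ∈ I, S.red (t i - algebraMap K F (aI i)) = S.red (t i))
    (hcA : ∀ i ∈ I, aI i / astar ∈ S.A) (haA : astar ∈ S.A) (hai : astar⁻¹ ∉ S.A)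
    (hy : y ∈ S.Ov) (hm0 : (m : K) ≠ 0) (hmA : ((m : K))⁻¹ ∈ S.A)
    {istar : ι'} (hstar : istar ∈ I) (hastar : aI istar = astar) (ha0 : astar ≠ 0)
    (h1 : Q.ord (S.red (t istar)) = 1)
    (h0 : ∀ i ∈ I, i ≠ istar → Q.ord (S.red (t i)) ≤ 0) :
    Q.ord (S.red (klY I t aI astar m y)) = -1 := by
  classical
  rw [red_klY hsU hreds hcA haA hai hy,
    kl_ord_red_unit_mul Q hm0 (natCast_mem _ m) hmA, ← Finset.add_sum_erase I _ hstar]
  have hordσs : Q.ord (S.red (algebraMap K F (aI istar / astar)) * (S.red (t istar))⁻¹) = -1 := by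
    rw [hastar, div_self ha0, map_one, red_one, one_mul, Q.ord_inv, h1]
  rw [ord_add_eq_of_lt Q (by rw [hordσs]; norm_num)]
  · exact hordσs
  · refine kl_ord_sum_ge Q _ _ le_rfl fun i hi => ?_
    refine kl_ord_red_const_mul_ge Q (hcA i (Finset.mem_of_mem_erase hi)) _ le_rfl ?_
    rw [Q.ord_inv]
    have := h0 i (Finset.mem_of_mem_erase hi) (Finset.ne_of_mem_erase hi)
    omega

/-- `V = 1 + a Y` is a unit with reduction `1`. -/
theorem klV_isU {a : K} (haA : a ∈ S.A) (hai : a⁻¹ ∉ S.A) {Y : F} (hY : Y ∈ S.Ov) :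
    S.IsU (1 + algebraMap K F a * Y) ∧ S.red (1 + algebraMap K F a * Y) = 1 := by
  have haO : algebraMap K F a ∈ S.Ov := (const_mem_iff a).mpr haA
  have hreda : S.red (algebraMap K F a) = 0 := kl_red_const_eq_zero haA hai
  have hVmem : 1 + algebraMap K F a * Y ∈ S.Ov := add_mem (one_mem _) (mul_mem haO hY)
  have hredV : S.red (1 + algebraMap K F a * Y) = 1 := by
    rw [red_add (one_mem _) (mul_mem haO hY), red_one, red_mul haO hY, hreda, zero_mul, add_zero]
  exact ⟨isU_of_red_ne_zero hVmem (by rw [hredV]; exact one_ne_zero), hredV⟩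

/-- the reduction of `W = (u - 1) / τ`. -/
theorem kl_W_red {u Y : F} {a τ : K} (haA : a ∈ S.A) (hai : a⁻¹ ∉ S.A) (hτ : τ ≠ 0)
    (hY : Y ∈ S.Ov)
    (hX : (u * (1 + algebraMap K F a * Y) - 1) / algebraMap K F τ ∈ S.Ov) (hc : a / τ ∈ S.A) :
    (u - 1) / algebraMap K F τ ∈ S.Ov ∧
      S.red ((u - 1) / algebraMap K F τ) =
        S.red ((u * (1 + algebraMap K F a * Y) - 1) / algebraMap K F τ) -
          S.red (algebraMap K F (a / τ)) * S.red Y := by
  obtain ⟨hVU, hredV⟩ := klV_isU (S := S) haA hai hY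
  have hτF0 : algebraMap K F τ ≠ 0 := by simpa using hτ
  have hcO : algebraMap K F (a / τ) ∈ S.Ov := (const_mem_iff _).mpr hc
  have hT : u * (1 + algebraMap K F a * Y) - 1 - algebraMap K F a * Y =
      (u - 1) * (1 + algebraMap K F a * Y) := by ring
  have e : ((u - 1) * (1 + algebraMap K F a * Y)) / algebraMap K F τ =
      (u * (1 + algebraMap K F a * Y) - 1) / algebraMap K F τ -
        algebraMap K F (a / τ) * Y := by
    rw [← hT, sub_div, map_div₀]
    field_simp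
  have hTmem : ((u - 1) * (1 + algebraMap K F a * Y)) / algebraMap K F τ ∈ S.Ov := by
    rw [e]; exact sub_mem hX (mul_mem hcO hY)
  have hr : S.red (((u - 1) * (1 + algebraMap K F a * Y)) / algebraMap K F τ) =
      S.red ((u * (1 + algebraMap K F a * Y) - 1) / algebraMap K F τ) -
        S.red (algebraMap K F (a / τ)) * S.red Y := by
    rw [e, red_sub hX (mul_mem hcO hY), red_mul hcO hY]
  have hWe : (u - 1) / algebraMap K F τ =
      ((u - 1) * (1 + algebraMap K F a * Y)) / algebraMap K F τ *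
        (1 + algebraMap K F a * Y)⁻¹ := by
    have := hVU.ne_zero
    field_simp
  refine ⟨by rw [hWe]; exact mul_mem hTmem hVU.inv_mem, ?_⟩
  rw [hWe, red_mul hTmem hVU.inv_mem, hVU.red_inv, hredV, inv_one, mul_one, hr]

/-- the pole order of the reduction of `W` at a smooth point. -/
theorem kl_W_ord_ge {u Y : F} {a τ : K} (haA : a ∈ S.A) (hai : a⁻¹ ∉ S.A) (hτ : τ ≠ 0)
    (hY : Y ∈ S.Ov)
    (hX : (u * (1 + algebraMap K F a * Y) - 1) / algebraMap K F τ ∈ S.Ov) (hc : a / τ ∈ S.A)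
    (Q : Place k Fk) (hQ : S.sm Q)
    (hXreg : ∀ P, S.r P = some (S.emb Q) → 0 ≤ P.ord (u * (1 + algebraMap K F a * Y) - 1))
    (hYord : -1 ≤ Q.ord (S.red Y)) :
    -1 ≤ Q.ord (S.red ((u - 1) / algebraMap K F τ)) := by
  rw [(kl_W_red haA hai hτ hY hX hc).2]
  refine kl_ord_sub_ge_of_ge Q (by norm_num) ?_ ?_
  · have h0 : 0 ≤ Q.ord (S.red ((u * (1 + algebraMap K F a * Y) - 1) / algebraMap K F τ)) := by
      by_cases hU : S.IsU ((u * (1 + algebraMap K F a * Y) - 1) / algebraMap K F τ)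
      · exact push_nonneg hU Q hQ fun P hP => by
          rw [kl_ord_div_const P hτ]; exact hXreg P hP
      · rw [red_eq_zero_of_not_isU hX hU, Place.ord_zero]
    omega
  · exact kl_ord_red_const_mul_ge Q hc _ (by norm_num) hYord

/-- the reduction of `W` does not vanish on the side of `Rb istar` if `a / τ` is a unit. -/
theorem kl_W_ne_zero {u Y : F} {a τ : K} (haA : a ∈ S.A) (hai : a⁻¹ ∉ S.A) (hτ : τ ≠ 0)
    (hY : Y ∈ S.Ov)
    (hX : (u * (1 + algebraMap K F a * Y) - 1) / algebraMap K F τ ∈ S.Ov) (hc : a / τ ∈ S.A)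
    (Q : Place k Fk) (hQ : S.sm Q)
    (hXreg : ∀ P, S.r P = some (S.emb Q) → 0 ≤ P.ord (u * (1 + algebraMap K F a * Y) - 1))
    (hY3 : Q.ord (S.red Y) = -1) (ha0 : a ≠ 0) (hci : (a / τ)⁻¹ ∈ S.A) :
    S.red ((u - 1) / algebraMap K F τ) ≠ 0 := by
  rw [(kl_W_red haA hai hτ hY hX hc).2]
  intro h0
  rw [sub_eq_zero] at h0
  have hreg : 0 ≤ Q.ord (S.red ((u * (1 + algebraMap K F a * Y) - 1) / algebraMap K F τ)) := by
    by_cases hU : S.IsU ((u * (1 + algebraMap K F a * Y) - 1) / algebraMap K F τ)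
    · exact push_nonneg hU Q hQ fun P hP => by
        rw [kl_ord_div_const P hτ]; exact hXreg P hP
    · rw [red_eq_zero_of_not_isU hX hU, Place.ord_zero]
  have hcne : a / τ ≠ 0 := div_ne_zero ha0 hτ
  rw [h0, kl_ord_red_unit_mul Q hcne hc hci, hY3] at hreg
  omega

/-- if `a / τ` is not a unit, the reduction of `W` is that of `X / τ`. -/
theorem kl_W_red_of_not_unit {u Y : F} {a τ : K} (haA : a ∈ S.A) (hai : a⁻¹ ∉ S.A) (hτ : τ ≠ 0)
    (hY : Y ∈ S.Ov)
    (hX : (u * (1 + algebraMap K F a * Y) - 1) / algebraMap K F τ ∈ S.Ov) (hc : a / τ ∈ S.A)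
    (hci : (a / τ)⁻¹ ∉ S.A) :
    S.red ((u - 1) / algebraMap K F τ) =
      S.red ((u * (1 + algebraMap K F a * Y) - 1) / algebraMap K F τ) := by
  rw [(kl_W_red haA hai hτ hY hX hc).2, kl_red_const_eq_zero hc hci, zero_mul, sub_zero]

end OneSide

end NK

end Fermat.Agent.BadRed
end
end MergeWrap_Lib_BadRed_Nodal_KeyCore

section MergeWrap_Lib_BadRed_Nodal_KeyMain -- from Lib/BadRed/Nodal/KeyMain.lean

set_option autoImplicit false

/-!
# Cluster T, N2a: the main step of the nodal KEY LEMMA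

`nodalMain : NodalMainStatement N g NS`: if `u₀` has divisor `m * ∑ (P i - R i)` with `P i` in the
residue disc of `Rb i` and `m` a unit of `A`, then `P i = R i` for all `i`.
Port of `Fermat.Agent.S18.KeyLemma` / `KeyMain` (helper61) to pairs of reductions.
-/

noncomputable section

open AlgebraicCurve Fermat.Agent.RR Fermat.Agent.Deuring

namespace Fermat.Agent.BadRed

namespace NK

open Fermat.Agent.S18Key (ord_neg' ord_nonneg_add ord_nonneg_sub ord_nonneg_mul ord_const_nonneg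
  ord_one_nonneg ord_add_ge_of_ge ord_add_eq_of_lt mapDomain_apply_eq_sum sum_le_mapDomain
  mapDomain_nonneg le_mapDomain add_le_mapDomain kl_ord_const_mul kl_ord_mul_const
  kl_ord_div_const kl_ord_sum_ge kl_ord_prod kl_ord_pow kl_ord_sub_ge_of_ge
  kl_ne_zero_of_ord_ne_zero kl_const_eq_zero_of_ord_pos)

variable {K F k Fk₁ Fk₂ : Type*} [Field K] [Field F] [Algebra K F]
  [Field k] [Field Fk₁] [Algebra k Fk₁] [Field Fk₂] [Algebra k Fk₂] {ι : Type*}
  {N : NodalSetup K F k Fk₁ Fk₂ ι} {g : ℕ}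

/-- the choice of the scaling constant `τ`. -/
theorem exists_tau (N : NodalSetup K F k Fk₁ Fk₂ ι) (Xf : F) {a : K} (ha0 : a ≠ 0) :
    ∃ τ : K, τ ≠ 0 ∧ Xf / algebraMap K F τ ∈ N.S₁.Ov ∧ Xf / algebraMap K F τ ∈ N.S₂.Ov ∧
      a / τ ∈ N.S₁.A ∧ ((a / τ)⁻¹ ∈ N.S₁.A ∨
        N.S₁.red (Xf / algebraMap K F τ) ≠ 0 ∨ N.S₂.red (Xf / algebraMap K F τ) ≠ 0) := by
  have haF0 : algebraMap K F a ≠ 0 := by simpa using ha0
  have h1 : a / a ∈ N.S₁.A := by rw [div_self ha0]; exact one_mem _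
  have h1i : (a / a)⁻¹ ∈ N.S₁.A := by rw [div_self ha0, inv_one]; exact one_mem _
  by_cases hX0 : Xf = 0
  · refine ⟨a, ha0, ?_, ?_, h1, Or.inl h1i⟩
    · rw [hX0, zero_div]; exact zero_mem _
    · rw [hX0, zero_div]; exact zero_mem _
  · obtain ⟨b, hb0, hb₁, hb₂, hbne⟩ := exists_scale₂ N hX0
    have hbF0 : algebraMap K F b ≠ 0 := by simpa using hb0
    rcases N.S₁.A.mem_or_inv_mem (a / b) with h | h
    · exact ⟨b, hb0, hb₁, hb₂, h, Or.inr hbne⟩
    · rw [inv_div] at h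
      have e : Xf / algebraMap K F a = Xf / algebraMap K F b * algebraMap K F (b / a) := by
        rw [map_div₀]; field_simp
      refine ⟨a, ha0, ?_, ?_, h1, Or.inl h1i⟩
      · rw [e]; exact mul_mem hb₁ ((N.S₁.mem_Ov_iff _).mpr h)
      · rw [e]; exact mul_mem hb₂ ((N.S₂.mem_Ov_iff _).mpr ((mem_A₂_iff N _).mpr h))

/-- the core contradiction. -/
theorem kl_core₂ (NS : NodalNS N g) (I : Finset (Fin g)) (istar : Fin g) (hstar : istar ∈ I)
    {u : F} (huP0 : 0 < NS.P0.ord (u - 1))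
    (hu_off : ∀ v, (∀ j ∈ I, N.r v ≠ some (NS.Rb j)) → v.ord u = 0)
    {a : K} (ha0 : a ≠ 0) (haA : a ∈ N.S₁.A) (hai : a⁻¹ ∉ N.S₁.A)
    {Y : F} (hY₁ : Y ∈ N.S₁.Ov) (hY₂ : Y ∈ N.S₂.Ov)
    (hY2 : ∀ j ∈ I, -1 ≤ ordRed N (NS.Rb j) Y)
    (hY3 : ordRed N (NS.Rb istar) Y = -1)
    (huV : ∀ j ∈ I, ∀ v, N.r v = some (NS.Rb j) →
      v.ord (u * (1 + algebraMap K F a * Y)) = 0) :
    False := by
  have haA₂ : a ∈ N.S₂.A := (mem_A₂_iff N _).mpr haA
  have hai₂ : a⁻¹ ∉ N.S₂.A := fun h => hai ((mem_A₂_iff N _).mp h)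
  have hXreg : ∀ j ∈ I, ∀ v, N.r v = some (NS.Rb j) →
      0 ≤ v.ord (u * (1 + algebraMap K F a * Y) - 1) := fun j hj v hv =>
    ord_nonneg_sub v (huV j hj v hv).ge (ord_one_nonneg v)
  obtain ⟨τ, hτ0, hX₁, hX₂, hcA, hK3⟩ :=
    exists_tau N (u * (1 + algebraMap K F a * Y) - 1) ha0
  have hcA₂ : a / τ ∈ N.S₂.A := (mem_A₂_iff N _).mpr hcA
  have hW₁ := kl_W_red (S := side₁ N) haA hai hτ0 hY₁ hX₁ hcA
  have hW₂ := kl_W_red (S := side₂ N) haA₂ hai₂ hτ0 hY₂ hX₂ hcA₂
  have hordW : ∀ v : Place K F, v.ord ((u - 1) / algebraMap K F τ) = v.ord (u - 1) := fun v =>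
    kl_ord_div_const v hτ0 _
  refine kl_final₂ NS I hW₁.1 hW₂.1 ?_ ?_ ?_ (by rw [hordW]; exact huP0)
  · -- some reduction does not vanish
    by_cases hci : (a / τ)⁻¹ ∈ N.S₁.A
    · have hsm := isSm_of_r N (NS.r_R istar)
      have hreg := hXreg istar hstar
      revert hsm hreg hY3
      generalize NS.Rb istar = X
      intro hY3 hsm hreg
      cases X with
      | inl Q =>
        exact Or.inl (kl_W_ne_zero (S := side₁ N) haA hai hτ0 hY₁ hX₁ hcA Q hsm hreg hY3 ha0 hci)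
      | inr Q =>
        exact Or.inr (kl_W_ne_zero (S := side₂ N) haA₂ hai₂ hτ0 hY₂ hX₂ hcA₂ Q hsm hreg hY3 ha0
          ((mem_A₂_iff N _).mpr hci))
    · have hci₂ : (a / τ)⁻¹ ∉ N.S₂.A := fun h => hci ((mem_A₂_iff N _).mp h)
      rcases hK3 with h | h | h
      · exact absurd h hci
      · left
        have := kl_W_red_of_not_unit (S := side₁ N) haA hai hτ0 hY₁ hX₁ hcA hci
        rw [side₁_red] at this
        rw [this]; exact h
      · right
        have := kl_W_red_of_not_unit (S := side₂ N) haA₂ hai₂ hτ0 hY₂ hX₂ hcA₂ hci₂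
        rw [side₂_red] at this
        rw [this]; exact h
  · intro v hv
    rw [hordW]
    exact ord_nonneg_sub v (hu_off v hv).ge (ord_one_nonneg v)
  · intro j hj
    have hsm := isSm_of_r N (NS.r_R j)
    have hreg := hXreg j hj
    have hYj := hY2 j hj
    revert hsm hreg hYj
    generalize NS.Rb j = X
    intro hsm hreg hYj
    cases X with
    | inl Q => exact kl_W_ord_ge (S := side₁ N) haA hai hτ0 hY₁ hX₁ hcA Q hsm hreg hYj
    | inr Q => exact kl_W_ord_ge (S := side₂ N) haA₂ hai₂ hτ0 hY₂ hX₂ hcA₂ Q hsm hreg hYj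

/-- **the main step**. -/
theorem kl_main₂ (NS : NodalNS N g) (m : ℕ) (hm0 : (m : K) ≠ 0) (hmA : ((m : K))⁻¹ ∈ N.S₁.A)
    (P : Fin g → Place K F) (hP : ∀ i, N.r (P i) = some (NS.Rb i))
    (u₀ : F) (hu₀ : u₀ ≠ 0)
    (hdiv : ∀ v : Place K F, v.ord u₀ =
      m * ∑ i, (Finsupp.single (P i) (1 : ℤ) v - Finsupp.single (NS.R i) (1 : ℤ) v)) :
    ∀ i, P i = NS.R i := by
  classical
  by_contra hcon
  obtain ⟨i₀, hi₀⟩ := not_forall.mp hcon
  set I : Finset (Fin g) := Finset.univ.filter fun i => P i ≠ NS.R i with hI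
  have hmemI : ∀ i, i ∈ I ↔ P i ≠ NS.R i := fun i => by simp [hI]
  have hIne : I.Nonempty := ⟨i₀, (hmemI i₀).mpr hi₀⟩
  -- the divisor of u₀
  have hterm : ∀ (v : Place K F) (i : Fin g), (i ∉ I ∨ N.r v ≠ some (NS.Rb i)) →
      Finsupp.single (P i) (1 : ℤ) v - Finsupp.single (NS.R i) (1 : ℤ) v = 0 := by
    intro v i h
    rcases h with h | h
    · have : P i = NS.R i := by
        by_contra h'
        exact h ((hmemI i).mpr h')
      rw [this, sub_self]
    · have h1 : v ≠ P i := fun e => h (by rw [e]; exact hP i)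
      have h2 : v ≠ NS.R i := fun e => h (by rw [e]; exact NS.r_R i)
      rw [Finsupp.single_eq_of_ne h1, Finsupp.single_eq_of_ne h2, sub_self]
  have hH1 : ∀ v, (∀ j ∈ I, N.r v ≠ some (NS.Rb j)) → v.ord u₀ = 0 := by
    intro v hv
    rw [hdiv, Finset.sum_eq_zero, mul_zero]
    intro i _
    apply hterm
    by_cases hi : i ∈ I
    · exact Or.inr (hv i hi)
    · exact Or.inl hi
  have hH2 : ∀ j ∈ I, ∀ v, N.r v = some (NS.Rb j) → v.ord u₀ =
      m * (Finsupp.single (P j) (1 : ℤ) v - Finsupp.single (NS.R j) (1 : ℤ) v) := by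
    intro j _ v hv
    rw [hdiv, Finset.sum_eq_single j]
    · intro i _ hij
      apply hterm
      right
      rw [hv]
      exact fun e => hij (NS.Rb_inj (Option.some.inj e)).symm
    · intro h
      exact absurd (Finset.mem_univ j) h
  -- the push-forward of the divisor of `u₀` vanishes
  have hdisc : ∀ j ∈ I, Finsupp.mapDomain N.r (divOf N.S₁.hF u₀) (some (NS.Rb j)) = 0 := by
    intro j _
    have hD : divOf N.S₁.hF u₀ =
        (m : ℤ) • ∑ i, (Finsupp.single (P i) (1 : ℤ) - Finsupp.single (NS.R i) (1 : ℤ)) := by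
      ext v
      rw [divOf_apply, hdiv, Finsupp.smul_apply, Finsupp.finsetSum_apply, smul_eq_mul]
      simp only [Finsupp.sub_apply]
    have h0 : ∀ i, Finsupp.mapDomain N.r
        (Finsupp.single (P i) (1 : ℤ) - Finsupp.single (NS.R i) (1 : ℤ)) = 0 := by
      intro i
      rw [sub_eq_add_neg, ← Finsupp.single_neg, Finsupp.mapDomain_add, Finsupp.mapDomain_single,
        Finsupp.mapDomain_single, hP i, NS.r_R i, Finsupp.single_neg, add_neg_cancel]
    rw [hD, Finsupp.mapDomain_smul, Finsupp.mapDomain_finsetSum]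
    simp [h0]
  -- normalise
  obtain ⟨c, hc0, hU, hval⟩ := kl_normalise₂ NS I hu₀ hH1 hdisc
  have hordu : ∀ v : Place K F, v.ord (u₀ / algebraMap K F c) = v.ord u₀ := fun v =>
    kl_ord_div_const v hc0 u₀
  have hmZ : (m : ℤ) ≠ 0 := by
    intro h
    apply hm0
    have : m = 0 := by exact_mod_cast h
    rw [this]
    simp
  have hu1 : u₀ / algebraMap K F c ≠ 1 := by
    intro h1
    have := hH2 i₀ ((hmemI i₀).mpr hi₀) (P i₀) (hP i₀)
    rw [← hordu, h1, Place.ord_one, Finsupp.single_eq_same, Finsupp.single_eq_of_ne hi₀,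
      sub_zero, mul_one] at this
    exact hmZ this.symm
  have huP0 : 0 < NS.P0.ord (u₀ / algebraMap K F c - 1) := hval.resolve_left hu1
  -- local data
  have hloc : ∀ i, ∃ a : K, i ∈ I → (a ≠ 0 ∧ a ∈ N.S₁.A ∧ a⁻¹ ∉ N.S₁.A ∧
      (∀ v, N.r v = some (NS.Rb i) → v.ord (NS.t i) = Finsupp.single (NS.R i) (1 : ℤ) v) ∧
      (∀ v, N.r v = some (NS.Rb i) →
        v.ord (NS.t i - algebraMap K F a) = Finsupp.single (P i) (1 : ℤ) v)) := by
    intro i
    by_cases hi : i ∈ I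
    · obtain ⟨a, ha⟩ := kl_exists_self₂ NS i (P i) (hP i) ((hmemI i).mp hi)
      exact ⟨a, fun _ => ha⟩
    · exact ⟨0, fun h => absurd h hi⟩
  choose aI hL using hloc
  -- choose `istar` with maximal valuation
  obtain ⟨istar, hstar, hmax⟩ :=
    Finset.exists_max_image I (fun i => N.S₁.A.valuation (aI i)) hIne
  have ha0 : aI istar ≠ 0 := (hL istar hstar).1
  have haA : aI istar ∈ N.S₁.A := (hL istar hstar).2.1
  have hai : (aI istar)⁻¹ ∉ N.S₁.A := (hL istar hstar).2.2.1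
  have haA₂ : aI istar ∈ N.S₂.A := (mem_A₂_iff N _).mpr haA
  have hai₂ : (aI istar)⁻¹ ∉ N.S₂.A := fun h => hai ((mem_A₂_iff N _).mp h)
  have hmA₂ : ((m : K))⁻¹ ∈ N.S₂.A := (mem_A₂_iff N _).mpr hmA
  have haF0 : algebraMap K F (aI istar) ≠ 0 := by simpa using ha0
  have hcA : ∀ i ∈ I, aI i / aI istar ∈ N.S₁.A := by
    intro i hi
    rw [← ValuationSubring.valuation_le_one_iff, map_div₀]
    have hpos : 0 < N.S₁.A.valuation (aI istar) :=
      zero_lt_iff.mpr ((Valuation.ne_zero_iff _).mpr ha0)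
    exact (div_le_one₀ hpos).mpr (hmax i hi)
  have hcA₂ : ∀ i ∈ I, aI i / aI istar ∈ N.S₂.A := fun i hi => (mem_A₂_iff N _).mpr (hcA i hi)
  -- units
  have hsU := fun i (hi : i ∈ I) => kl_s_isU₂ NS i (hL i hi).2.1 (hL i hi).2.2.1
  have hsU₁ : ∀ i ∈ I, (side₁ N).IsU (NS.t i - algebraMap K F (aI i)) := fun i hi =>
    (hsU i hi).1.u₁
  have hsU₂ : ∀ i ∈ I, (side₂ N).IsU (NS.t i - algebraMap K F (aI i)) := fun i hi =>
    (hsU i hi).1.u₂
  have hs0 : ∀ i ∈ I, NS.t i - algebraMap K F (aI i) ≠ 0 := fun i hi => (hsU₁ i hi).ne_zero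
  -- expansions over `R = O₁ ⊓ O₂`
  set R : Subring F := N.S₁.Ov.toSubring ⊓ N.S₂.Ov.toSubring with hR
  have hmemR : ∀ x : F, x ∈ R ↔ x ∈ N.S₁.Ov ∧ x ∈ N.S₂.Ov := fun x => by
    rw [hR, Subring.mem_inf]; rfl
  have haR : algebraMap K F (aI istar) ∈ R :=
    (hmemR _).mpr ⟨(N.S₁.mem_Ov_iff _).mpr haA, (N.S₂.mem_Ov_iff _).mpr haA₂⟩
  have hσR : ∀ i ∈ I,
      algebraMap K F (aI i / aI istar) * (NS.t i - algebraMap K F (aI i))⁻¹ ∈ R := fun i hi =>
    (hmemR _).mpr ⟨klσ_mem (S := side₁ N) hsU₁ hcA i hi, klσ_mem (S := side₂ N) hsU₂ hcA₂ i hi⟩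
  have hq : ∀ i ∈ I, NS.t i * (NS.t i - algebraMap K F (aI i))⁻¹ =
      1 + algebraMap K F (aI istar) *
        (algebraMap K F (aI i / aI istar) * (NS.t i - algebraMap K F (aI i))⁻¹) := by
    intro i hi
    have := hs0 i hi
    rw [map_div₀]
    field_simp
    ring
  have hq0 : ∀ i ∈ I, NS.t i * (NS.t i - algebraMap K F (aI i))⁻¹ ≠ 0 := fun i hi =>
    mul_ne_zero (kl_t_isU₂ NS i).u₁.ne_zero (inv_ne_zero (hs0 i hi))
  have hexp : KLExpR R (algebraMap K F (aI istar))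
      ((∏ i ∈ I, NS.t i * (NS.t i - algebraMap K F (aI i))⁻¹) ^ m)
      ((m : F) * ∑ i ∈ I,
        algebraMap K F (aI i / aI istar) * (NS.t i - algebraMap K F (aI i))⁻¹) := by
    apply KLExpR.pow haR (sum_mem hσR)
    apply KLExpR.prod I _ _ haR hσR
    intro i hi
    rw [hq i hi]
    exact KLExpR.base _ _ _
  obtain ⟨y, hy, hVy⟩ := hexp
  obtain ⟨hy₁, hy₂⟩ := (hmemR y).mp hy
  have hVY : (∏ i ∈ I, NS.t i * (NS.t i - algebraMap K F (aI i))⁻¹) ^ m =
      1 + algebraMap K F (aI istar) * klY I NS.t aI (aI istar) m y := by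
    rw [hVy]; unfold klY; ring
  have hYmem₁ : klY I NS.t aI (aI istar) m y ∈ N.S₁.Ov :=
    klY_mem (S := side₁ N) hsU₁ hcA haA hy₁
  have hYmem₂ : klY I NS.t aI (aI istar) m y ∈ N.S₂.Ov :=
    klY_mem (S := side₂ N) hsU₂ hcA₂ haA₂ hy₂
  -- pole orders of `Y`
  have hY2 : ∀ j ∈ I, -1 ≤ ordRed N (NS.Rb j) (klY I NS.t aI (aI istar) m y) := by
    intro j _
    have hord : ∀ i, pairOrd (NS.Rb j) (N.S₁.red (NS.t i)) (N.S₂.red (NS.t i)) ≤ 1 := by
      intro i
      by_cases hij : i = j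
      · subst hij; rw [NS.ord_t_self]
      · rw [NS.ord_t_other i j hij]; norm_num
    revert hord
    unfold ordRed
    generalize NS.Rb j = X
    intro hord
    cases X with
    | inl Q =>
      exact ord_red_klY_ge (S := side₁ N) Q hsU₁ (fun i hi => (hsU i hi).2.1) hcA haA hai hy₁
        (fun i _ => hord i)
    | inr Q =>
      exact ord_red_klY_ge (S := side₂ N) Q hsU₂ (fun i hi => (hsU i hi).2.2) hcA₂ haA₂ hai₂ hy₂
        (fun i _ => hord i)
  have hY3 : ordRed N (NS.Rb istar) (klY I NS.t aI (aI istar) m y) = -1 := by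
    have h1 := NS.ord_t_self istar
    have h0 : ∀ i, i ≠ istar →
        pairOrd (NS.Rb istar) (N.S₁.red (NS.t i)) (N.S₂.red (NS.t i)) ≤ 0 := fun i hi => by
      rw [NS.ord_t_other i istar hi]
    revert h1 h0
    unfold ordRed
    generalize NS.Rb istar = X
    intro h1 h0
    cases X with
    | inl Q =>
      exact ord_red_klY_eq (S := side₁ N) Q hsU₁ (fun i hi => (hsU i hi).2.1) hcA haA hai hy₁
        hm0 hmA hstar rfl ha0 h1 (fun i _ hi => h0 i hi)
    | inr Q =>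
      exact ord_red_klY_eq (S := side₂ N) Q hsU₂ (fun i hi => (hsU i hi).2.2) hcA₂ haA₂ hai₂ hy₂
        hm0 hmA₂ hstar rfl ha0 h1 (fun i _ hi => h0 i hi)
  -- orders of `u * V` on the discs
  have huV : ∀ j ∈ I, ∀ v, N.r v = some (NS.Rb j) →
      v.ord (u₀ / algebraMap K F c *
        (1 + algebraMap K F (aI istar) * klY I NS.t aI (aI istar) m y)) = 0 := by
    intro j hj v hv
    rw [← hVY, v.ord_mul hU.u₁.ne_zero (pow_ne_zero _ (Finset.prod_ne_zero_iff.mpr hq0)), hordu,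
      hH2 j hj v hv, kl_ord_pow, kl_ord_prod v I _ hq0, Finset.sum_eq_single_of_mem j hj]
    · rw [v.ord_mul (kl_t_isU₂ NS j).u₁.ne_zero (inv_ne_zero (hs0 j hj)), v.ord_inv,
        (hL j hj).2.2.2.1 v hv, (hL j hj).2.2.2.2 v hv]
      ring
    · intro i hi hij
      obtain ⟨h1, h2⟩ := kl_ord_other₂ NS i j hij (hL i hi).2.1 (hL i hi).2.2.1 v hv
      rw [v.ord_mul (kl_t_isU₂ NS i).u₁.ne_zero (inv_ne_zero (hs0 i hi)), v.ord_inv, h1, h2]
      norm_num
  exact kl_core₂ NS I istar hstar huP0 (fun v hv => by rw [hordu]; exact hH1 v hv)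
    ha0 haA hai hYmem₁ hYmem₂ hY2 hY3 huV

/-- **(N2a)** the main step of the nodal KEY LEMMA. -/
theorem nodalMain (N : NodalSetup K F k Fk₁ Fk₂ ι) (g : ℕ) (NS : NodalNS N g) :
    NodalMainStatement N g NS :=
  fun m hm0 hmA P hP u₀ hu₀ hdiv => kl_main₂ NS m hm0 hmA P hP u₀ hu₀ hdiv

end NK

end Fermat.Agent.BadRed
end
end MergeWrap_Lib_BadRed_Nodal_KeyMain
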